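import Fermat.Agent.GES.Cong
import Fermat.Agent.GES.Level

set_option autoImplicit false
set_option synthInstance.maxHeartbeats 400000

/-!
# S48 / GES1 : the abstract Eichler-Shimura relation with diamond operators

`F₀` is ANY field of rational `q`-series, `FB F₀ = ℚ̄ · F₀ ⊆ ℚ̄((q))` (Prelude `laurentBaseChange`), with the coefficientwise
Galois action `galB`.  `VB F₀ m = {f : m ∣ div f} / m`-th powers.

* `rhoB F₀ m : G_ℚ →* End (VB F₀ m)`, `exists_level_B`;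
* `HeckeAt F₀ r` : a multiplicative Hecke operator `T` and a diamond automorphism `D` at the prime `r` with
  `(T f)(q) = (D f)(q^r) ∏_{i mod r} f(ζ^i q^{1/r})`;
* `CCB F₀ r m` : the core claim, `NFB F₀ r` : normal forms;
* `unramB` : inertia at `r` acts trivially on `VB F₀ m`;
* `es_relationB` : `ρ(σ)² - T ρ(σ) + r D = 0` on `VB F₀ m` for every Frobenius element `σ` at `r`.

This is `GES/Cong.lean` + `GES/Relation.lean` with `D` inserted; nothing about modular curves is used.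
-/

noncomputable section

namespace Fermat.Agent.S48.GES1

open AlgebraicCurve ModularCurve
open Fermat.Agent.S24 (Kb)
open Fermat.Agent.S18 (kA IntA SmallA incA redA)
open Fermat.Agent.GES

variable (F₀ : IntermediateField ℚ (LaurentSeries ℚ))

/-- `ℚ̄ · F₀`. -/
abbrev FB : Type := ↥(laurentBaseChange Kb F₀)

/-- Kummer classes. -/
abbrev VB (m : ℕ) : Type := Vm Kb (FB F₀) m

abbrev DB (m : ℕ) : Subgroup (FB F₀)ˣ := divBy Kb (FB F₀) m

/-! ### Galois -/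

def galB (σ : GQ) : FB F₀ ≃+* FB F₀ := arithmeticRingAut F₀ σ

@[simp] theorem coe_galB (σ : GQ) (f : FB F₀) :
    (galB F₀ σ f : LaurentSeries Kb) = coeffMap (σ : Kb →+* Kb) (f : LaurentSeries Kb) := rfl

theorem galB_one (f : FB F₀) : galB F₀ 1 f = f := by
  apply Subtype.ext
  rw [coe_galB]
  ext k
  simp

theorem galB_mul (σ τ : GQ) (f : FB F₀) : galB F₀ (σ * τ) f = galB F₀ σ (galB F₀ τ f) := by
  apply Subtype.ext
  rw [coe_galB, coe_galB, coe_galB]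
  ext k
  simp

theorem galB_algebraMap (σ : GQ) (a : Kb) :
    galB F₀ σ (algebraMap Kb (FB F₀) a) = algebraMap Kb (FB F₀) (σ a) :=
  arithmeticRingAut_algebraMap F₀ σ a

def galBU (σ : GQ) : (FB F₀)ˣ →* (FB F₀)ˣ :=
  Units.map ((galB F₀ σ : FB F₀ →+* FB F₀) : FB F₀ →* FB F₀)

@[simp] theorem coe_galBU (σ : GQ) (f : (FB F₀)ˣ) :
    ((galBU F₀ σ f : (FB F₀)ˣ) : FB F₀) = galB F₀ σ f := rfl

theorem galBU_mem (m : ℕ) (σ : GQ) : ∀ f ∈ DB F₀ m, galBU F₀ σ f ∈ DB F₀ m := by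
  intro f hf v
  have h := SemilinearAut.ord_smul (arithmeticGalois F₀ σ)
    ((arithmeticGalois F₀ σ)⁻¹ • v) (f : FB F₀)
  rw [smul_inv_smul] at h
  have h2 : ((galBU F₀ σ f : (FB F₀)ˣ) : FB F₀) = arithmeticGalois F₀ σ • (f : FB F₀) := rfl
  rw [h2, h]
  exact hf _

/-- the Galois representation on `VB F₀ m`. -/
def rhoB (m : ℕ) : GQ →* Module.End (ZMod m) (VB F₀ m) where
  toFun σ := Vm.mapEnd (galBU F₀ σ) (galBU_mem F₀ m σ)
  map_one' := by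
    apply Vm.end_ext
    intro f
    rw [Vm.mapEnd_mk, Module.End.one_apply]
    exact congrArg Vm.mk (Subtype.ext (Units.ext (galB_one F₀ _)))
  map_mul' σ τ := by
    apply Vm.end_ext
    intro f
    rw [Vm.mapEnd_mk, Module.End.mul_apply, Vm.mapEnd_mk, Vm.mapEnd_mk]
    exact congrArg Vm.mk (Subtype.ext (Units.ext (galB_mul F₀ σ τ _)))

@[simp] theorem rhoB_mk (m : ℕ) (σ : GQ) (f : DB F₀ m) :
    rhoB F₀ m σ (Vm.mk f) = Vm.mk ⟨galBU F₀ σ f, galBU_mem F₀ m σ f f.2⟩ :=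
  Vm.mapEnd_mk _ _ f

theorem exists_level_FB (f : FB F₀) :
    ∃ L : IntermediateField ℚ (AlgebraicClosure ℚ), FiniteDimensional ℚ L ∧
      ∀ σ : GQ, (∀ x ∈ L, σ x = x) → galB F₀ σ f = f := by
  obtain ⟨L, hL, h⟩ := level_aux F₀ f.1 f.2
  exact ⟨L, hL, fun σ hσ => Subtype.ext (h σ hσ)⟩

theorem exists_level_B (m : ℕ) (x : VB F₀ m) :
    ∃ L : IntermediateField ℚ (AlgebraicClosure ℚ), FiniteDimensional ℚ L ∧
      ∀ σ : GQ, (∀ y ∈ L, σ y = y) → rhoB F₀ m σ x = x := by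
  obtain ⟨f, rfl⟩ := Vm.mk_surjective x
  obtain ⟨L, hL, h⟩ := exists_level_FB F₀ ((f : (FB F₀)ˣ) : FB F₀)
  refine ⟨L, hL, fun σ hσ => ?_⟩
  rw [rhoB_mk]
  exact congrArg Vm.mk (Subtype.ext (Units.ext (h σ hσ)))

theorem trans_rhoB {m m' : ℕ} (hm : m' ∣ m) (σ : GQ) (x : VB F₀ m) :
    Vm.trans Kb (FB F₀) hm (rhoB F₀ m σ x) = rhoB F₀ m' σ (Vm.trans Kb (FB F₀) hm x) := by
  obtain ⟨f, rfl⟩ := Vm.mk_surjective x
  rw [rhoB_mk, Vm.trans_mk, Vm.trans_mk, rhoB_mk]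

/-! ### operators induced by `ℚ̄`-automorphisms (diamonds) -/

def autU (D : FB F₀ ≃ₐ[Kb] FB F₀) : (FB F₀)ˣ →* (FB F₀)ˣ :=
  Units.map ((D : FB F₀ →+* FB F₀) : FB F₀ →* FB F₀)

@[simp] theorem coe_autU (D : FB F₀ ≃ₐ[Kb] FB F₀) (f : (FB F₀)ˣ) :
    ((autU F₀ D f : (FB F₀)ˣ) : FB F₀) = D f := rfl

theorem autU_mem (D : FB F₀ ≃ₐ[Kb] FB F₀) (m : ℕ) : ∀ f ∈ DB F₀ m, autU F₀ D f ∈ DB F₀ m := by
  intro f hf v
  have h := SemilinearAut.ord_smul (SemilinearAut.ofAlgAut D)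
    ((SemilinearAut.ofAlgAut D)⁻¹ • v) (f : FB F₀)
  rw [smul_inv_smul] at h
  have h2 : ((autU F₀ D f : (FB F₀)ˣ) : FB F₀) = SemilinearAut.ofAlgAut D • (f : FB F₀) := rfl
  rw [h2, h]
  exact hf _

/-- the operator on `VB F₀ m` induced by a `ℚ̄`-automorphism. -/
def autV (D : FB F₀ ≃ₐ[Kb] FB F₀) (m : ℕ) : Module.End (ZMod m) (VB F₀ m) :=
  Vm.mapEnd (autU F₀ D) (autU_mem F₀ D m)

@[simp] theorem autV_mk (D : FB F₀ ≃ₐ[Kb] FB F₀) (m : ℕ) (f : DB F₀ m) :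
    autV F₀ D m (Vm.mk f) = Vm.mk ⟨autU F₀ D f, autU_mem F₀ D m f f.2⟩ :=
  Vm.mapEnd_mk _ _ f

/-! ### the hypotheses -/

/-- the core claim for `FB F₀`. -/
def CCB (ℓ m : ℕ) : Prop :=
  ∀ A : ValuationSubring Kb, A.LiesOverPrime ℓ → ∀ a b : FB F₀,
    IntA A a.1 → IntA A b.1 → ¬ SmallA A b.1 → SmallA A (a.1 - b.1) →
    (∀ v : Place Kb (FB F₀), (m : ℤ) ∣ v.ord (a / b)) → ∃ w : FB F₀, w ^ m = a / b

/-- normal forms at `ℓ`. -/
def NFB (ℓ : ℕ) : Prop :=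
  ∀ A : ValuationSubring Kb, A.LiesOverPrime ℓ → ∀ f : FB F₀, f ≠ 0 →
    ∃ (c : Kb) (a b : FB F₀), c ≠ 0 ∧ IntA A a.1 ∧ IntA A b.1 ∧ ¬ SmallA A a.1 ∧ ¬ SmallA A b.1 ∧
      f = algebraMap Kb (FB F₀) c * (a / b)

/-- normal forms at `ℓ` with numerator and denominator in a given set `S`. -/
def NFS (ℓ : ℕ) (S : Set (FB F₀)) : Prop :=
  ∀ A : ValuationSubring Kb, A.LiesOverPrime ℓ → ∀ f : FB F₀, f ≠ 0 →
    ∃ (c : Kb) (a b : FB F₀), a ∈ S ∧ b ∈ S ∧ c ≠ 0 ∧ IntA A a.1 ∧ IntA A b.1 ∧ ¬ SmallA A a.1 ∧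
      ¬ SmallA A b.1 ∧ f = algebraMap Kb (FB F₀) c * (a / b)

theorem NFS.nfb {ℓ : ℕ} {S : Set (FB F₀)} (h : NFS F₀ ℓ S) : NFB F₀ ℓ := by
  intro A hA f hf
  obtain ⟨c, a, b, -, -, h⟩ := h A hA f hf
  exact ⟨c, a, b, h⟩

/-- a multiplicative Hecke operator `T` and a diamond automorphism `D` at the prime `r`.
`S` is a set of functions `a` such that `D a` has bounded denominators (`D a = c a₁`, `a₁` integral and not small).
NO compatibility of `D` with the Gauss norm is needed (no `q`-expansion principle). -/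
structure HeckeAt (r : ℕ) [NeZero r] where
  T : FB F₀ →* FB F₀
  D : FB F₀ ≃ₐ[Kb] FB F₀
  T_gal : ∀ (σ : GQ) (f : FB F₀), T (galB F₀ σ f) = galB F₀ σ (T f)
  D_gal : ∀ (σ : GQ) (f : FB F₀), D (galB F₀ σ f) = galB F₀ σ (D f)
  T_const : ∀ c : Kb, c ≠ 0 → ∃ c' : Kb, c' ≠ 0 ∧
    T (algebraMap Kb (FB F₀) c) = algebraMap Kb (FB F₀) c'
  T_mem : ∀ m : ℕ, m ≠ 0 → ∀ f ∈ DB F₀ m, Units.map T f ∈ DB F₀ m
  star : ∀ ζ : Kbˣ, IsPrimitiveRoot ζ r → ∀ f : FB F₀,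
    qExpand Kb r (T f : LaurentSeries Kb) =
      qExpand Kb r (qExpand Kb r (D f : LaurentSeries Kb)) *
        ∏ i : Fin r, S28.twist (ζ ^ (i : ℕ)) (f : LaurentSeries Kb)
  S : Set (FB F₀)
  D_nf : ∀ A : ValuationSubring Kb, A.LiesOverPrime r → ∀ a ∈ S, a ≠ 0 →
    ∃ (c : Kb) (a₁ : FB F₀), c ≠ 0 ∧ IntA A a₁.1 ∧ ¬ SmallA A a₁.1 ∧
      D a = algebraMap Kb (FB F₀) c * a₁

variable {F₀}

namespace HeckeAt

variable {r : ℕ} [NeZero r] (H : HeckeAt F₀ r)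

/-- the Hecke operator on `VB F₀ m`. -/
def TV (m : ℕ) [NeZero m] : Module.End (ZMod m) (VB F₀ m) :=
  Vm.mapEnd (Units.map H.T) (H.T_mem m (NeZero.ne m))

@[simp] theorem TV_mk (m : ℕ) [NeZero m] (f : DB F₀ m) :
    H.TV m (Vm.mk f) = Vm.mk ⟨Units.map H.T f, H.T_mem m (NeZero.ne m) f f.2⟩ :=
  Vm.mapEnd_mk _ _ f

/-- the diamond operator on `VB F₀ m`. -/
def DV (m : ℕ) : Module.End (ZMod m) (VB F₀ m) := autV F₀ H.D m

@[simp] theorem DV_mk (m : ℕ) (f : DB F₀ m) :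
    H.DV m (Vm.mk f) = Vm.mk ⟨autU F₀ H.D f, autU_mem F₀ H.D m f f.2⟩ :=
  autV_mk F₀ H.D m f

theorem TV_comm_rhoB (m : ℕ) [NeZero m] (σ : GQ) :
    H.TV m * rhoB F₀ m σ = rhoB F₀ m σ * H.TV m := by
  apply Vm.end_ext
  intro f
  rw [Module.End.mul_apply, Module.End.mul_apply, rhoB_mk, TV_mk, TV_mk, rhoB_mk]
  exact congrArg Vm.mk (Subtype.ext (Units.ext (H.T_gal σ _)))

theorem DV_comm_rhoB (m : ℕ) (σ : GQ) :
    H.DV m * rhoB F₀ m σ = rhoB F₀ m σ * H.DV m := by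
  apply Vm.end_ext
  intro f
  rw [Module.End.mul_apply, Module.End.mul_apply, rhoB_mk, DV_mk, DV_mk, rhoB_mk]
  exact congrArg Vm.mk (Subtype.ext (Units.ext (H.D_gal σ _)))

theorem T_ne_zero {b : FB F₀} (hb : b ≠ 0) : H.T b ≠ 0 := by
  intro h0
  have h1 : H.T b * H.T b⁻¹ = 1 := by
    rw [← map_mul, mul_inv_cancel₀ hb, map_one]
  rw [h0, zero_mul] at h1
  exact zero_ne_one h1

theorem T_div (a : FB F₀) {b : FB F₀} (hb : b ≠ 0) : H.T (a / b) = H.T a / H.T b := by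
  rw [eq_div_iff (H.T_ne_zero hb), ← map_mul, div_mul_cancel₀ _ hb]

/-- if `D a = c a₁` then `T (σ a) = σ(c) Z` with `Z ≡ a₁^r · σ² a  (mod 𝔪_A)`. -/
theorem cong_frob (hr : r.Prime) (A : ValuationSubring Kb) (hA : A.LiesOverPrime r) (σ : GQ)
    (hσ : A.IsFrobeniusAt σ r) (a a₁ : FB F₀) (c : Kb) (hc : c ≠ 0) (ha : IntA A a.1)
    (ha₁ : IntA A a₁.1) (hD : H.D a = algebraMap Kb (FB F₀) c * a₁) :
    ∃ Z : FB F₀, H.T (galB F₀ σ a) = algebraMap Kb (FB F₀) (σ c) * Z ∧ IntA A Z.1 ∧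
      SmallA A (Z.1 - (a₁ ^ r * galB F₀ σ (galB F₀ σ a)).1) := by
  have hσd : σ ∈ A.decompositionSubgroup ℚ := hσ.mem_decompositionSubgroup
  have hσc : σ c ≠ 0 := (map_ne_zero _).2 hc
  refine ⟨algebraMap Kb (FB F₀) (σ c)⁻¹ * H.T (galB F₀ σ a), ?_, ?_⟩
  · rw [← mul_assoc, ← map_mul, mul_inv_cancel₀ hσc, map_one, one_mul]
  obtain ⟨y, hy⟩ := S18.exists_incA_eq ha
  obtain ⟨y', hy'⟩ := S18.exists_incA_eq ha₁
  obtain ⟨s, hs⟩ := exists_sigA A hσd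
  have hcomm := cong_incA_coeffMap A σ s hs
  set Y : LaurentSeries A := coeffMap s y with hYdef
  set Y' : LaurentSeries A := coeffMap s y' with hYdef'
  have hY : incA A Y = (galB F₀ σ a : LaurentSeries Kb) := by
    rw [coe_galB, hYdef, hcomm, hy]
  have hY' : incA A Y' = (galB F₀ σ a₁ : LaurentSeries Kb) := by
    rw [coe_galB, hYdef', hcomm, hy']
  obtain ⟨ζ, hζ⟩ := cong_exists_zeta r hr
  obtain ⟨z, hz⟩ := exists_unit_of_pow_eq_one A hr.ne_zero ζ hζ.pow_eq_one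
  have hzζ : Units.map (A.subtype : A →* Kb) z = ζ := Units.ext hz
  have hconst : ∀ x : Kb, qExpand Kb r (algebraMap Kb (LaurentSeries Kb) x) =
      algebraMap Kb (LaurentSeries Kb) x := by
    intro x
    rw [algebraMap_laurentSeries_eq_single, qExpand_single, mul_zero]
  have hstar : qExpand Kb r
      ((algebraMap Kb (FB F₀) (σ c)⁻¹ * H.T (galB F₀ σ a) : FB F₀) : LaurentSeries Kb) =
      qExpand Kb r (qExpand Kb r (galB F₀ σ a₁ : LaurentSeries Kb)) *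
        ∏ i : Fin r, S28.twist (ζ ^ (i : ℕ)) (galB F₀ σ a : LaurentSeries Kb) := by
    have h0 := H.star ζ hζ (galB F₀ σ a)
    have h1 : ((algebraMap Kb (FB F₀) (σ c)⁻¹ * H.T (galB F₀ σ a) : FB F₀) : LaurentSeries Kb) =
        algebraMap Kb (LaurentSeries Kb) (σ c)⁻¹ * (H.T (galB F₀ σ a) : LaurentSeries Kb) := rfl
    have h2 : (H.D (galB F₀ σ a) : LaurentSeries Kb) =
        algebraMap Kb (LaurentSeries Kb) (σ c) * (galB F₀ σ a₁ : LaurentSeries Kb) := by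
      rw [H.D_gal, hD, map_mul, galB_algebraMap]
      rfl
    rw [h1, map_mul, hconst, h0, h2, map_mul, map_mul, hconst, hconst, ← mul_assoc, ← mul_assoc,
      ← map_mul, inv_mul_cancel₀ hσc, map_one, one_mul]
  set T : LaurentSeries Kb :=
    ((algebraMap Kb (FB F₀) (σ c)⁻¹ * H.T (galB F₀ σ a) : FB F₀) : LaurentSeries Kb) with hT
  set Z : LaurentSeries A := qExpand A r (qExpand A r Y') * ∏ i : Fin r, S28.twist (z ^ (i : ℕ)) Y
    with hZ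
  have hZinc : incA A Z = qExpand Kb r T := by
    rw [hstar, hZ, map_mul, map_prod, coeffMap_qExpand, coeffMap_qExpand, hY']
    congr 1
    refine Finset.prod_congr rfl fun i _ => ?_
    rw [S28.coeffMap_twist, map_pow, hY, hzζ]
  have hTint : IntA A T := by
    rw [← intA_qExpand_iff r, ← hZinc]
    exact S18.intA_incA A Z
  refine ⟨hTint, ?_⟩
  obtain ⟨t, ht⟩ := S18.exists_incA_eq hTint
  have htZ : qExpand A r t = Z := by
    apply S18.incA_injective A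
    rw [coeffMap_qExpand, ht, hZinc]
  have hrhs : ((a₁ ^ r * galB F₀ σ (galB F₀ σ a) : FB F₀) : LaurentSeries Kb) =
      incA A (y' ^ r * coeffMap s Y) := by
    rw [map_mul, map_pow, hcomm, hY, hy']
    rfl
  rw [hrhs, ← ht, ← map_sub, S18.smallA_incA_iff, map_sub, sub_eq_zero]
  have : Fact r.Prime := ⟨hr⟩
  have : CharP (kA A) r := S29.FDFixed.charP_residue A hr hA
  have hred : ∀ w : LaurentSeries A,
      redA A (coeffMap s w) = coeffMap (frobenius (kA A) r) (redA A w) := by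
    intro w
    ext n
    simp only [coeffMap_coeff]
    exact residue_sigA_frob A hσ s hs _
  apply qExpand_injective (R := kA A) r
  rw [← coeffMap_qExpand, htZ, hZ, map_mul, map_prod, coeffMap_qExpand, coeffMap_qExpand]
  have htw : ∀ i : Fin r, redA A (S28.twist (z ^ (i : ℕ)) Y) = redA A Y := by
    intro i
    rw [S28.coeffMap_twist]
    have : Units.map (IsLocalRing.residue A : A →* kA A) (z ^ (i : ℕ)) = 1 := by
      apply Units.ext
      rw [Units.coe_map, Units.val_pow_eq_pow_val, Units.val_one]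
      show IsLocalRing.residue A ((z : A) ^ (i : ℕ)) = 1
      rw [map_pow, residue_eq_one_of_pow_eq_one A hr hA (z : A) ?_, one_pow]
      apply Subtype.ext
      have := congrArg Units.val hζ.pow_eq_one
      rw [Units.val_pow_eq_pow_val, ← hz] at this
      exact this
    rw [this, twist_one']
  rw [Finset.prod_congr rfl (fun i _ => htw i), Finset.prod_const, Finset.card_univ,
    Fintype.card_fin, map_mul, map_mul, map_pow, hred Y, pow_char_eq r (redA A Y)]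
  congr 1
  rw [hYdef', hred y', ← pow_char_eq r (redA A y')]

end HeckeAt

theorem cong_inertiaB (A : ValuationSubring Kb) (τ : GQ) (hτ : τ ∈ A.inertiaSubgroupIn ℚ)
    (a : FB F₀) (ha : IntA A a.1) :
    IntA A (galB F₀ τ a).1 ∧ SmallA A ((galB F₀ τ a).1 - a.1) := by
  have hτd := mem_decomposition_of_mem_inertia A hτ
  obtain ⟨y, hy⟩ := S18.exists_incA_eq ha
  obtain ⟨s, hs⟩ := exists_sigA A hτd
  have hcomm := cong_incA_coeffMap A τ s hs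
  have h1 : (galB F₀ τ a : LaurentSeries Kb) = incA A (coeffMap s y) := by
    rw [coe_galB, hcomm, hy]
  refine ⟨?_, ?_⟩
  · rw [h1]
    exact S18.intA_incA A _
  · rw [h1, ← hy, ← map_sub, S18.smallA_incA_iff, map_sub, sub_eq_zero]
    ext n
    simp only [coeffMap_coeff]
    exact residue_sigA_inertia A hτ s hs _

theorem ne_zero_of_not_small {A : ValuationSubring Kb} {X : FB F₀} (h : ¬ SmallA A X.1) :
    X ≠ 0 := by
  rintro rfl
  exact not_smallA_ne_zero h rfl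

theorem mk_eq_zero_of_congB {ℓ m : ℕ} [NeZero m] (hCC : CCB F₀ ℓ m)
    (A : ValuationSubring Kb) (hA : A.LiesOverPrime ℓ) (h : DB F₀ m) (c : Kb) (hc : c ≠ 0)
    (X Y : FB F₀) (hX : IntA A X.1) (hY : IntA A Y.1) (hY' : ¬ SmallA A Y.1)
    (hXY : SmallA A (X.1 - Y.1))
    (hh : ((h : (FB F₀)ˣ) : FB F₀) = algebraMap Kb (FB F₀) c * (X / Y)) : Vm.mk h = 0 := by
  have hY0 : Y ≠ 0 := ne_zero_of_not_small hY'
  have hX0 : X ≠ 0 := ne_zero_of_not_small (not_smallA_of_sub hXY hY')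
  have hc' : algebraMap Kb (FB F₀) c ≠ 0 := by
    simpa using hc
  have hord : ∀ v : Place Kb (FB F₀), (m : ℤ) ∣ v.ord (X / Y) := by
    intro v
    have h1 := h.2 v
    rw [hh, Place.ord_mul v hc' (div_ne_zero hX0 hY0), Fermat.Agent.S24.ord_algebraMap,
      zero_add] at h1
    exact h1
  obtain ⟨w, hw⟩ := hCC A hA X Y hX hY hY' hXY hord
  obtain ⟨c0, hc0⟩ := IsAlgClosed.exists_pow_nat_eq c (Nat.pos_of_ne_zero (NeZero.ne m))
  exact Vm.mk_eq_zero_of_pow_eq (NeZero.ne m) h (algebraMap Kb (FB F₀) c0 * w)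
    (by rw [mul_pow, ← map_pow, hc0, hw, hh])

theorem galB_formula (τ : GQ) (c : Kb) (a b : FB F₀) :
    galB F₀ τ (algebraMap Kb (FB F₀) c * (a / b)) =
      algebraMap Kb (FB F₀) (τ c) * (galB F₀ τ a / galB F₀ τ b) := by
  rw [map_mul, map_div₀, galB_algebraMap]

theorem intA_galB {A : ValuationSubring Kb} {σ : GQ}
    (hσ : σ ∈ A.decompositionSubgroup ℚ) {a : FB F₀} (ha : IntA A a.1) :
    IntA A (galB F₀ σ a).1 :=
  intA_coeffMap hσ ha

theorem not_smallA_galB {A : ValuationSubring Kb} {σ : GQ}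
    (hσ : σ ∈ A.decompositionSubgroup ℚ) {a : FB F₀} (ha : ¬ SmallA A a.1) :
    ¬ SmallA A (galB F₀ σ a).1 :=
  fun h => ha ((smallA_coeffMap_iff hσ).1 h)

/-- **inertia acts trivially.** -/
theorem unramB {m ℓ : ℕ} [NeZero m] (hCC : CCB F₀ ℓ m) (hNF : NFB F₀ ℓ)
    (A : ValuationSubring Kb) (hA : A.LiesOverPrime ℓ) (τ : GQ) (hτ : τ ∈ A.inertiaSubgroupIn ℚ) :
    rhoB F₀ m τ = 1 := by
  have hτD := mem_decomposition_of_mem_inertia A hτ
  apply Vm.end_ext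
  intro f
  rw [rhoB_mk, Module.End.one_apply, ← sub_eq_zero, ← Vm.mk_div]
  obtain ⟨c, a, b, hc, ha, hb, ha', hb', hf⟩ :=
    hNF A hA ((f : (FB F₀)ˣ) : FB F₀) (f : (FB F₀)ˣ).ne_zero
  have ha0 : a ≠ 0 := ne_zero_of_not_small ha'
  have hb0 : b ≠ 0 := ne_zero_of_not_small hb'
  obtain ⟨hta, hta'⟩ := cong_inertiaB A τ hτ a ha
  obtain ⟨htb, htb'⟩ := cong_inertiaB A τ hτ b hb
  have hτa0 : galB F₀ τ a ≠ 0 := (map_ne_zero _).2 ha0
  have hτb0 : galB F₀ τ b ≠ 0 := (map_ne_zero _).2 hb0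
  have hτc : τ c ≠ 0 := (map_ne_zero _).2 hc
  refine mk_eq_zero_of_congB hCC A hA _ (τ c / c) (div_ne_zero hτc hc)
    (galB F₀ τ a * b) (a * galB F₀ τ b) (IntA.mul hta hb) (IntA.mul ha htb)
    (not_smallA_mul ha htb ha' (not_smallA_galB hτD hb')) ?_ ?_
  · have : (galB F₀ τ a * b).1 - (a * galB F₀ τ b).1 =
        ((galB F₀ τ a).1 - a.1) * b.1 - a.1 * ((galB F₀ τ b).1 - b.1) := by
      show (galB F₀ τ a).1 * b.1 - a.1 * (galB F₀ τ b).1 = _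
      ring
    rw [this]
    exact SmallA.sub (SmallA.mul_right hta' hb) (SmallA.mul_left htb' ha)
  · rw [Subgroup.coe_div, Units.val_div_eq_div_val]
    show galB F₀ τ ((f : (FB F₀)ˣ) : FB F₀) / ((f : (FB F₀)ˣ) : FB F₀) = _
    rw [hf, galB_formula, map_div₀]
    have hc1 : algebraMap Kb (FB F₀) c ≠ 0 := by simpa using hc
    have hc2 : algebraMap Kb (FB F₀) (τ c) ≠ 0 := by simpa using hτc
    field_simp

/-- **The Eichler-Shimura relation with diamond operators.** -/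
theorem es_relationB {m r : ℕ} [NeZero m] [NeZero r] (H : HeckeAt F₀ r) (hr : r.Prime)
    (hCC : CCB F₀ r m) (hNF : NFS F₀ r H.S)
    (A : ValuationSubring Kb) (hA : A.LiesOverPrime r) (σ : GQ) (hσ : A.IsFrobeniusAt σ r) :
    rhoB F₀ m σ * rhoB F₀ m σ - H.TV m * rhoB F₀ m σ + (r : ZMod m) • H.DV m = 0 := by
  have hσD := hσ.mem_decompositionSubgroup
  apply Vm.end_ext
  intro f
  rw [LinearMap.add_apply, LinearMap.sub_apply, Module.End.mul_apply, Module.End.mul_apply,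
    LinearMap.smul_apply, LinearMap.zero_apply, rhoB_mk, rhoB_mk, HeckeAt.TV_mk, HeckeAt.DV_mk,
    Nat.cast_smul_eq_nsmul, ← Vm.mk_pow, ← Vm.mk_div, ← Vm.mk_mul]
  obtain ⟨c, a, b, haS, hbS, hc, ha, hb, ha', hb', hf⟩ :=
    hNF A hA ((f : (FB F₀)ˣ) : FB F₀) (f : (FB F₀)ˣ).ne_zero
  have ha0 : a ≠ 0 := ne_zero_of_not_small ha'
  have hb0 : b ≠ 0 := ne_zero_of_not_small hb'
  obtain ⟨ca, a₁, hca, hIa₁, hNa₁, hDa⟩ := H.D_nf A hA a haS ha0
  obtain ⟨cb, b₁, hcb, hIb₁, hNb₁, hDb⟩ := H.D_nf A hA b hbS hb0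
  obtain ⟨Za, hTa, hIZa, hZa'⟩ := H.cong_frob hr A hA σ hσ a a₁ ca hca ha hIa₁ hDa
  obtain ⟨Zb, hTb, hIZb, hZb'⟩ := H.cong_frob hr A hA σ hσ b b₁ cb hcb hb hIb₁ hDb
  set sa := galB F₀ σ a with hsa
  set sb := galB F₀ σ b with hsb
  set ssa := galB F₀ σ sa with hssa
  set ssb := galB F₀ σ sb with hssb
  have hsa0 : sa ≠ 0 := (map_ne_zero _).2 ha0
  have hsb0 : sb ≠ 0 := (map_ne_zero _).2 hb0
  have hssa0 : ssa ≠ 0 := (map_ne_zero _).2 hsa0
  have hssb0 : ssb ≠ 0 := (map_ne_zero _).2 hsb0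
  have ha₁0 : a₁ ≠ 0 := ne_zero_of_not_small hNa₁
  have hb₁0 : b₁ ≠ 0 := ne_zero_of_not_small hNb₁
  have hσc : σ c ≠ 0 := (map_ne_zero _).2 hc
  have hσσc : σ (σ c) ≠ 0 := (map_ne_zero _).2 hσc
  have hσca : σ ca ≠ 0 := (map_ne_zero _).2 hca
  have hσcb : σ cb ≠ 0 := (map_ne_zero _).2 hcb
  obtain ⟨c', hc', hTc⟩ := H.T_const (σ c) hσc
  have hIssa : IntA A ssa.1 := intA_galB hσD (intA_galB hσD ha)
  have hIssb : IntA A ssb.1 := intA_galB hσD (intA_galB hσD hb)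
  have hNssa : ¬ SmallA A ssa.1 := not_smallA_galB hσD (not_smallA_galB hσD ha')
  have hNssb : ¬ SmallA A ssb.1 := not_smallA_galB hσD (not_smallA_galB hσD hb')
  have hIal : IntA A (a₁ ^ r).1 := IntA.pow hIa₁ r
  have hIbl : IntA A (b₁ ^ r).1 := IntA.pow hIb₁ r
  have hNal : ¬ SmallA A (a₁ ^ r).1 := not_smallA_pow hIa₁ hNa₁ r
  have hNbl : ¬ SmallA A (b₁ ^ r).1 := not_smallA_pow hIb₁ hNb₁ r
  have hNZa : ¬ SmallA A Za.1 :=
    not_smallA_of_sub hZa' (not_smallA_mul hIal hIssa hNal hNssa)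
  have hNZb : ¬ SmallA A Zb.1 :=
    not_smallA_of_sub hZb' (not_smallA_mul hIbl hIssb hNbl hNssb)
  have hZa0 : Za ≠ 0 := ne_zero_of_not_small hNZa
  have hZb0 : Zb ≠ 0 := ne_zero_of_not_small hNZb
  refine mk_eq_zero_of_congB hCC A hA _
    (σ (σ c) * (c * ca) ^ r * σ cb / (c' * cb ^ r * σ ca))
    (div_ne_zero (mul_ne_zero (mul_ne_zero hσσc (pow_ne_zero _ (mul_ne_zero hc hca))) hσcb)
      (mul_ne_zero (mul_ne_zero hc' (pow_ne_zero _ hcb)) hσca))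
    (ssa * a₁ ^ r * Zb) (ssb * b₁ ^ r * Za)
    (IntA.mul (IntA.mul hIssa hIal) hIZb) (IntA.mul (IntA.mul hIssb hIbl) hIZa)
    (not_smallA_mul (IntA.mul hIssb hIbl) hIZa (not_smallA_mul hIssb hIbl hNssb hNbl) hNZa) ?_ ?_
  · have : (ssa * a₁ ^ r * Zb).1 - (ssb * b₁ ^ r * Za).1 =
        (ssa * a₁ ^ r).1 * (Zb.1 - (b₁ ^ r * ssb).1) -
          (ssb * b₁ ^ r).1 * (Za.1 - (a₁ ^ r * ssa).1) := by
      show ssa.1 * (a₁ ^ r).1 * Zb.1 - ssb.1 * (b₁ ^ r).1 * Za.1 =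
        ssa.1 * (a₁ ^ r).1 * (Zb.1 - (b₁ ^ r).1 * ssb.1) -
          ssb.1 * (b₁ ^ r).1 * (Za.1 - (a₁ ^ r).1 * ssa.1)
      ring
    rw [this]
    exact SmallA.sub (SmallA.mul_left hZb' (IntA.mul hIssa hIal))
      (SmallA.mul_left hZa' (IntA.mul hIssb hIbl))
  · rw [Subgroup.coe_mul, Units.val_mul, Subgroup.coe_div, Units.val_div_eq_div_val,
      Subgroup.coe_pow, Units.val_pow_eq_pow_val]
    show galB F₀ σ (galB F₀ σ ((f : (FB F₀)ˣ) : FB F₀)) /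
      H.T (galB F₀ σ ((f : (FB F₀)ˣ) : FB F₀)) * (H.D ((f : (FB F₀)ˣ) : FB F₀)) ^ r = _
    rw [hf, galB_formula, galB_formula, map_mul H.T, H.T_div _ hsb0, hTc,
      map_mul H.D, map_div₀ H.D, AlgEquiv.commutes, ← hsa, ← hsb, ← hssa, ← hssb,
      hTa, hTb, hDa, hDb, map_div₀, map_mul, map_mul, map_mul, map_mul, map_pow, map_pow, map_mul]
    have hc1 : algebraMap Kb (FB F₀) c ≠ 0 := by simpa using hc
    have hc2 : algebraMap Kb (FB F₀) c' ≠ 0 := by simpa using hc'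
    have hc3 : algebraMap Kb (FB F₀) ca ≠ 0 := by simpa using hca
    have hc4 : algebraMap Kb (FB F₀) cb ≠ 0 := by simpa using hcb
    have hc5 : algebraMap Kb (FB F₀) (σ ca) ≠ 0 := by simpa using hσca
    have hc6 : algebraMap Kb (FB F₀) (σ cb) ≠ 0 := by simpa using hσcb
    simp only [div_pow, mul_pow]
    field_simp

end Fermat.Agent.S48.GES1
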