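import Fermat.Agent.S48.GES1.PreLevel

set_option autoImplicit false

/-!
# GES1 (concrete part) : the embeddings of `F_{Nℓ}` over `F_N` (twin of `GES/Emb`, `GES/EmbG0` on `T24`)

* `theta_one`   : `theta M ∞ 1` is the standard embedding `f(q) ↦ f(s^M)`;
* `theta_alpha` : for `g ∈ Gam N` the embedding `theta (Nℓ) ∞ g` is the standard one on `F_N`;
* `exists_g0`   : for `σ ∈ Γ₀(N)` with `σ₁₁ ≡ ℓ mod D` there is `g ∈ Gam N` with
  `theta (Nℓ) ∞ g ((⟨ℓ⟩ f)(q^ℓ)) = f(q^{1/ℓ})`, where `⟨ℓ⟩ f = f ∘ σ = diaF N σ⁻¹ f`.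

`g = h⁻¹`, `h = (1 t; N ℓk)`, `ℓ k - t N = 1`:  `ℓ d · h z = γ (d z / ℓ)`, `γ = (ℓ, d t; N / d, k)`, so
`j (ℓ d · h z) = j (d z / ℓ)`, `t_b (ℓ e · h z) = t_{b ℓ} (e z / ℓ)`.
-/

open UpperHalfPlane ModularForm CongruenceSubgroup
open scoped MatrixGroups

noncomputable section

namespace Fermat.Agent.T24.GES1

open Fermat.Agent.S24 ModularCurve

/-- the standard embedding `f(q) ↦ f(s^M)` of `F_M` in `ℂ((s))`, `s = q^{1/M}`. -/
def stdEmb (M : ℕ) [NeZero M] [Cond M] : FN M →+* LaurentSeries ℂ :=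
  (qExpand ℂ M).comp ((coeffMap iotaK).comp (algebraMap (FN M) (LaurentSeries Kb)))

theorem stdEmb_apply (M : ℕ) [NeZero M] [Cond M] (f : FN M) :
    stdEmb M f = qExpand ℂ M (coeffMap iotaK (f : LaurentSeries Kb)) := rfl

theorem theta_one (M : ℕ) [NeZero M] [Cond M] : theta M (cuspChart M) 1 = stdEmb M := by
  apply theta_ext
  intro a
  rw [theta_incl, degree_actB_one]
  have h1 : (cuspChart M).onB (PhiB M a) =
      TInf M ⟨(PhiB M a : ℍ → ℂ), Btil_le_perSub M (PhiB M a).2⟩ := rfl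
  rw [h1, TInf_PhiB]
  rfl

theorem emb_coe_thetaIncl (N : ℕ) [NeZero N] [Cond N] (a : A0 N) :
    ((thetaIncl N a : FN N) : LaurentSeries Kb) = (a : LaurentSeries Kb) := rfl

theorem emb_coe_alpha (N ℓ : ℕ) [NeZero N] [NeZero ℓ] [Cond N] (x : FN N) :
    (((heckeAlphaBar Kb N ℓ).toRingHom x : FN (N * ℓ)) : LaurentSeries Kb) =
      (x : LaurentSeries Kb) :=
  coe_heckeAlphaBar Kb N ℓ x

/-- For `g ∈ Gam N` the embedding `theta (Nℓ) ∞ g` is the standard one on `F_N`. -/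
theorem theta_alpha (N ℓ : ℕ) [NeZero N] [NeZero ℓ] [Cond N] (g : SL(2, ℤ)) (hg : g ∈ Gam N)
    (f : FN N) :
    theta (N * ℓ) (cuspChart (N * ℓ)) g (heckeAlphaBar Kb N ℓ f) =
      stdEmb (N * ℓ) (heckeAlphaBar Kb N ℓ f) := by
  rw [← theta_one]
  have key : (theta (N * ℓ) (cuspChart (N * ℓ)) g).comp (heckeAlphaBar Kb N ℓ).toRingHom =
      (theta (N * ℓ) (cuspChart (N * ℓ)) 1).comp (heckeAlphaBar Kb N ℓ).toRingHom := by
    apply theta_ext N
    intro a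
    have key2 : ((theta (N * ℓ) (cuspChart (N * ℓ)) g).comp
        (heckeAlphaBar Kb N ℓ).toRingHom).comp (thetaIncl N) =
        ((theta (N * ℓ) (cuspChart (N * ℓ)) 1).comp
        (heckeAlphaBar Kb N ℓ).toRingHom).comp (thetaIncl N) := by
      apply phi_ringHom_ext N
      · intro c
        have h1 : thetaIncl N (algebraMap Kb (A0 N) c) = algebraMap Kb (FN N) c := rfl
        simp only [RingHom.comp_apply, h1]
        have h2 : (heckeAlphaBar Kb N ℓ).toRingHom (algebraMap Kb (FN N) c) =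
            algebraMap Kb (FN (N * ℓ)) c := (heckeAlphaBar Kb N ℓ).commutes c
        rw [h2, theta_const, theta_const]
      · intro d hd
        have h1 : (heckeAlphaBar Kb N ℓ).toRingHom (thetaIncl N ⟨Jser d, Jser_mem_A0 hd⟩) =
            thetaIncl (N * ℓ) ⟨Jser d, Jser_mem_A0 (hd.mul_right ℓ)⟩ := by
          apply Subtype.ext
          rw [emb_coe_alpha, emb_coe_thetaIncl, emb_coe_thetaIncl]
        simp only [RingHom.comp_apply, h1]
        rw [theta_incl, theta_incl, degree_actB_one]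
        congr 1
        apply Subtype.ext
        rw [coe_actB, PhiB_Jser (N * ℓ) (hd.mul_right ℓ)]
        exact act_jd_of_mem_Gamma0 hd g hg.1
      · intro e b he
        have he' : e * Cond.D (N * ℓ) ∣ N * ℓ := Dvd.dvd.mul_right he ℓ
        have h1 : (heckeAlphaBar Kb N ℓ).toRingHom
            (thetaIncl N ⟨Tser (Cond.D N) e b, Tser_mem_A0 he b⟩) =
            thetaIncl (N * ℓ) ⟨Tser (Cond.D (N * ℓ)) e b, Tser_mem_A0 he' b⟩ := by
          apply Subtype.ext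
          rw [emb_coe_alpha, emb_coe_thetaIncl, emb_coe_thetaIncl]
          rfl
        simp only [RingHom.comp_apply, h1]
        rw [theta_incl, theta_incl, degree_actB_one]
        congr 1
        apply Subtype.ext
        rw [coe_actB, PhiB_Tser (N * ℓ) he']
        exact act_te_of_mem_Gam he b g hg
    exact congrArg (fun φ => φ a) key2
  exact congrArg (fun φ => φ f) key

/-! ### the conjugate `f(ℓ z) ↦ f(z/ℓ)` -/

theorem pre_pre_level (d ℓ : ℕ) (hd : 0 < d) (hℓ : 0 < ℓ) (F : ℍ → ℂ) :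
    pre 1 0 ℓ (pre d 0 1 F) = pre d 0 ℓ F := by
  funext z
  unfold pre
  congr 2
  rw [expandB_coe_ofComplex 1 0 ℓ one_pos hℓ]
  have hℓc : (ℓ : ℂ) ≠ 0 := by exact_mod_cast hℓ.ne'
  push_cast
  field_simp
  ring

section Key

variable {N ℓ : ℕ} (hℓ : 0 < ℓ) (t k : ℤ) (hdet : (ℓ : ℤ) * k - t * N = 1) (h : SL(2, ℤ))
  (h00 : h 0 0 = 1) (h01 : h 0 1 = t) (h10 : h 1 0 = N) (h11 : h 1 1 = ℓ * k)

include hℓ hdet h00 h01 h10 h11

theorem act_pre_eq {d : ℕ} (hd0 : 0 < d) (e : ℕ) (hde : N = d * e) (F : ℍ → ℂ) :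
    ∃ γ : SL(2, ℤ), γ 0 0 = ℓ ∧ γ 1 0 = e ∧
      ∀ z : ℍ, act h⁻¹ (pre (ℓ * d) 0 1 F) z =
        F (γ • ofComplex (((d : ℂ) * z + (0 : ℕ)) / (ℓ : ℕ))) := by
  let γ : SL(2, ℤ) := ⟨!![ℓ * 1, d * t; e, k], by
    rw [Matrix.det_fin_two_of]
    rw [hde] at hdet
    push_cast at hdet
    linarith⟩
  refine ⟨γ, (by show (ℓ : ℤ) * 1 = ℓ; rw [mul_one]), rfl, fun z => ?_⟩
  rw [act_apply, inv_inv]
  unfold pre
  rw [smul_key hℓ hd0 e hde 1 t k h γ h00 h01 h10 h11 rfl rfl rfl rfl z]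

theorem act_jd_eq_pre {d : ℕ} (hd0 : 0 < d) (e : ℕ) (hde : N = d * e) :
    act h⁻¹ (jd (ℓ * d)) = pre 1 0 ℓ (jd d) := by
  obtain ⟨γ, -, -, hγ⟩ := act_pre_eq hℓ t k hdet h h00 h01 h10 h11 hd0 e hde jFun
  funext z
  unfold jd
  rw [hγ z, jFun_smul, pre_pre_level d ℓ hd0 hℓ]
  rfl

theorem act_te_eq_pre (D : ℕ) [NeZero D] {d : ℕ} (hd0 : 0 < d) (e : ℕ) (hde : N = d * e)
    (hD : D ∣ e) (b : ZMod D) :
    act h⁻¹ (te D (ℓ * d) b) = pre 1 0 ℓ (te D d (b * (ℓ : ZMod D))) := by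
  obtain ⟨γ, h0, h1, hγ⟩ := act_pre_eq hℓ t k hdet h h00 h01 h10 h11 hd0 e hde (tb D b)
  funext z
  unfold te
  rw [hγ z, tb_smul D b γ (by
    rw [h1, Int.cast_natCast]
    exact (ZMod.natCast_eq_zero_iff e D).mpr hD), pre_pre_level d ℓ hd0 hℓ, h0, Int.cast_natCast]
  rfl

end Key

theorem exists_g0 (N ℓ : ℕ) [NeZero N] [NeZero ℓ] [Cond N] (h : Nat.Coprime ℓ N) (σ : Gamma0 N)
    (hσ : (((σ : SL(2, ℤ)) 1 1 : ℤ) : ZMod (Cond.D N)) = (ℓ : ZMod (Cond.D N))) :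
    ∃ g : SL(2, ℤ), g ∈ Gam N ∧ ∀ f : FN N,
      theta (N * ℓ) (cuspChart (N * ℓ)) g (heckeBetaBar Kb N ℓ (diaF N σ⁻¹ f)) =
        qExpand ℂ N (coeffMap iotaK (f : LaurentSeries Kb)) := by
  have hℓ : 0 < ℓ := Nat.pos_of_ne_zero (NeZero.ne ℓ)
  have hN : 0 < N := Nat.pos_of_ne_zero (NeZero.ne N)
  obtain ⟨k, v, hav⟩ : IsCoprime (ℓ : ℤ) (N : ℤ) := Nat.isCoprime_iff_coprime.mpr h
  have hdet : (ℓ : ℤ) * k - (-v) * N = 1 := by linarith
  let hm : SL(2, ℤ) := ⟨!![1, -v; N, ℓ * k], by rw [Matrix.det_fin_two_of]; linarith⟩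
  have hmG : hm ∈ Gam N := by
    refine ⟨?_, Or.inl ?_⟩
    · rw [Gamma0_mem]
      show (((N : ℤ) : ℤ) : ZMod N) = 0
      simp
    · show (((ℓ : ℤ) * k : ℤ) : ZMod (Cond.D N)) = 1
      have h1 : (ℓ : ℤ) * k = 1 + (-v) * N := by linarith
      rw [h1]
      push_cast
      rw [(ZMod.natCast_eq_zero_iff N (Cond.D N)).mpr Cond.dvd, mul_zero, add_zero]
  refine ⟨hm⁻¹, (Gam N).inv_mem hmG, ?_⟩
  set c := cuspChart (N * ℓ) with hc
  have hσ0 : ((((σ⁻¹ : Gamma0 N) : SL(2, ℤ)) 1 1 : ℤ) : ZMod (Cond.D N)) * (ℓ : ZMod (Cond.D N)) =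
      1 := by
    have h1 : ((σ⁻¹ : Gamma0 N) : SL(2, ℤ)) 1 1 = (σ : SL(2, ℤ)) 0 0 := by
      rw [Subgroup.coe_inv, Matrix.SpecialLinearGroup.SL2_inv_expl]
      rfl
    rw [h1, ← hσ]
    exact gam_diag σ.2
  -- the general step: reduce to an identity of functions
  have step : ∀ (a : A0 N) (a' : A0 (N * ℓ)),
      act hm⁻¹ (PhiB (N * ℓ) a' : ℍ → ℂ) = pre 1 0 ℓ (PhiB N a : ℍ → ℂ) →
      theta (N * ℓ) c hm⁻¹ (thetaIncl (N * ℓ) a') = stdEmb N (thetaIncl N a) := by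
    intro a a' haa
    rw [theta_incl, hc, Cards.cuspChart_onB, stdEmb_apply, emb_coe_thetaIncl, ← TInf_PhiB N a]
    have e2 : ((actB (N * ℓ) hm⁻¹ (PhiB (N * ℓ) a') : Btil (N * ℓ)) : ℍ → ℂ) =
        pre 1 0 ℓ (PhiB N a : ℍ → ℂ) := by
      rw [coe_actB, haa]
    have hp : (PhiB N a : ℍ → ℂ) ∈ perSub N := Btil_le_perSub N (PhiB N a).2
    rw [expandC_TInf_congr (N * ℓ) e2 _ (pre_level_mem_perSub hp), TInf_pre_level hp]
  have key : (theta (N * ℓ) c hm⁻¹).comp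
      (((heckeBetaBar Kb N ℓ : FN N →ₐ[Kb] FN (N * ℓ)) : FN N →+* FN (N * ℓ)).comp
        ((diaF N σ⁻¹ : FN N ≃ₐ[Kb] FN N) : FN N →+* FN N)) = stdEmb N := by
    apply theta_ext N
    intro x
    have h2 : ((theta (N * ℓ) c hm⁻¹).comp
      (((heckeBetaBar Kb N ℓ : FN N →ₐ[Kb] FN (N * ℓ)) : FN N →+* FN (N * ℓ)).comp
        ((diaF N σ⁻¹ : FN N ≃ₐ[Kb] FN N) : FN N →+* FN N))).comp (thetaIncl N)
        = (stdEmb N).comp (thetaIncl N) := by
      apply phi_ringHom_ext N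
      · intro r
        simp only [RingHom.comp_apply]
        have e1 : thetaIncl N (algebraMap Kb (A0 N) r) = algebraMap Kb (FN N) r := rfl
        rw [e1]
        have e0 : ((diaF N σ⁻¹ : FN N ≃ₐ[Kb] FN N) : FN N →+* FN N) (algebraMap Kb (FN N) r) =
            algebraMap Kb (FN N) r := (diaF N σ⁻¹).commutes r
        have e2 : ((heckeBetaBar Kb N ℓ : FN N →ₐ[Kb] FN (N * ℓ)) : FN N →+* FN (N * ℓ))
            (algebraMap Kb (FN N) r) = algebraMap Kb (FN (N * ℓ)) r :=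
          (heckeBetaBar Kb N ℓ).commutes r
        rw [e0, e2, theta_const, stdEmb_apply]
        have e3 : ((algebraMap Kb (FN N) r : FN N) : LaurentSeries Kb)
            = algebraMap Kb (LaurentSeries Kb) r := rfl
        rw [e3, algebraMap_laurentSeries_eq_single, coeffMap_single, qExpand_single, mul_zero]
        rfl
      · intro d hd
        obtain ⟨e, hde⟩ := hd
        have hd0 : 0 < d := Nat.pos_of_ne_zero (by rintro rfl; simp at hde; omega)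
        have : NeZero d := ⟨hd0.ne'⟩
        have : NeZero (ℓ * d) := ⟨(Nat.mul_pos hℓ hd0).ne'⟩
        have hd' : ℓ * d ∣ N * ℓ := ⟨e, by rw [hde]; ring⟩
        simp only [RingHom.comp_apply]
        have e0 : ((diaF N σ⁻¹ : FN N ≃ₐ[Kb] FN N) : FN N →+* FN N)
            (thetaIncl N ⟨Jser d, Jser_mem_A0 ⟨e, hde⟩⟩) =
            thetaIncl N ⟨Jser d, Jser_mem_A0 ⟨e, hde⟩⟩ := by
          show diaF N σ⁻¹ _ = _
          rw [diaF_incl, diaA_Jser N σ⁻¹ ⟨e, hde⟩]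
        have e1 : ((heckeBetaBar Kb N ℓ : FN N →ₐ[Kb] FN (N * ℓ)) : FN N →+* FN (N * ℓ))
            (thetaIncl N ⟨Jser d, Jser_mem_A0 ⟨e, hde⟩⟩)
            = thetaIncl (N * ℓ) ⟨Jser (ℓ * d), Jser_mem_A0 hd'⟩ := by
          apply Subtype.ext
          show ((heckeBetaBar Kb N ℓ (thetaIncl N ⟨Jser d, Jser_mem_A0 ⟨e, hde⟩⟩) : FN (N * ℓ)) :
            LaurentSeries Kb) = Jser (ℓ * d)
          rw [coe_heckeBetaBar]
          show qExpand Kb ℓ (Jser d) = Jser (ℓ * d)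
          rw [phi_Jser_of_ne, phi_Jser_of_ne, jqNModC, jqNModC, qExpand_qExpand]
        rw [e0, e1]
        apply step
        rw [PhiB_Jser (N * ℓ) hd', PhiB_Jser N ⟨e, hde⟩]
        exact act_jd_eq_pre hℓ (-v) k hdet hm rfl rfl rfl rfl hd0 e hde
      · intro e b he
        obtain ⟨e', hde'⟩ := he
        have hd0 : 0 < e := Nat.pos_of_ne_zero (by rintro rfl; simp at hde'; omega)
        have : NeZero e := ⟨hd0.ne'⟩
        have : NeZero (ℓ * e) := ⟨(Nat.mul_pos hℓ hd0).ne'⟩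
        have he : e * Cond.D N ∣ N := ⟨e', hde'⟩
        have he' : ℓ * e * Cond.D (N * ℓ) ∣ N * ℓ := by
          show ℓ * e * Cond.D N ∣ N * ℓ
          rw [mul_assoc, mul_comm N ℓ]
          exact mul_dvd_mul_left ℓ he
        simp only [RingHom.comp_apply]
        set b' : ZMod (Cond.D N) :=
          b * ((((σ⁻¹ : Gamma0 N) : SL(2, ℤ)) 1 1 : ℤ) : ZMod (Cond.D N)) with hb'
        have e0 : ((diaF N σ⁻¹ : FN N ≃ₐ[Kb] FN N) : FN N →+* FN N)
            (thetaIncl N ⟨Tser (Cond.D N) e b, Tser_mem_A0 he b⟩) =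
            thetaIncl N ⟨Tser (Cond.D N) e b', Tser_mem_A0 he b'⟩ := by
          show diaF N σ⁻¹ _ = _
          rw [diaF_incl, diaA_Tser N σ⁻¹ he b]
        have e1 : ((heckeBetaBar Kb N ℓ : FN N →ₐ[Kb] FN (N * ℓ)) : FN N →+* FN (N * ℓ))
            (thetaIncl N ⟨Tser (Cond.D N) e b', Tser_mem_A0 he b'⟩)
            = thetaIncl (N * ℓ) ⟨Tser (Cond.D (N * ℓ)) (ℓ * e) b', Tser_mem_A0 he' b'⟩ := by
          apply Subtype.ext
          show ((heckeBetaBar Kb N ℓ (thetaIncl N ⟨Tser (Cond.D N) e b', Tser_mem_A0 he b'⟩) :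
            FN (N * ℓ)) : LaurentSeries Kb) = Tser (Cond.D N) (ℓ * e) b'
          rw [coe_heckeBetaBar]
          show qExpand Kb ℓ (Tser (Cond.D N) e b') = Tser (Cond.D N) (ℓ * e) b'
          have e5 : ∀ z : LaurentSeries ℚ, qExpand Kb ℓ (coeffEmb Kb z) =
              coeffEmb Kb (qExpand ℚ ℓ z) := fun z => (coeffMap_qExpand _ ℓ z).symm
          rw [phi_Tser_of_ne, phi_Tser_of_ne, e5, qExpand_qExpand]
        rw [e0, e1]
        apply step
        rw [PhiB_Tser (N * ℓ) he', PhiB_Tser N he]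
        have h3 := act_te_eq_pre hℓ (-v) k hdet hm rfl rfl rfl rfl (Cond.D N) hd0
          (Cond.D N * e') (hde'.trans (mul_assoc _ _ _)) (Dvd.intro _ rfl) b'
        rw [hb', mul_assoc, hσ0, mul_one] at h3
        exact h3
    exact congrArg (fun F : A0 N →+* LaurentSeries ℂ => F x) h2
  intro f
  exact congrArg (fun F : FN N →+* LaurentSeries ℂ => F f) key

end Fermat.Agent.T24.GES1
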