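import Fermat.Agent.S48.GES1.Norm
import Fermat.Agent.S48.T24.Ops
import Fermat.Agent.ES.NumIndex

set_option autoImplicit false
set_option synthInstance.maxHeartbeats 400000

/-!
# S48 / GES1 : finiteness, integrality and degree of the two degeneracy maps for `X(Gam N)`  (twin of `GES/Fin.lean`)
-/

noncomputable section

open CongruenceSubgroup
open scoped MatrixGroups

namespace Fermat.Agent.S48.GES1

open AlgebraicCurve ModularCurve IntermediateField
open Fermat.Agent.S24 (Kb iotaK)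
open Fermat.Agent.T24 (Cond Gam mem_Gam)
open Fermat.Agent.GES

/-! ### the index -/

theorem Gam_mul_le (N p : ℕ) [Cond N] : Gam (N * p) ≤ Gam N := by
  intro g hg
  refine ⟨?_, hg.2⟩
  have h1 := hg.1
  rw [ES.mem_Gamma0_iff_dvd] at h1 ⊢
  exact (Int.natCast_dvd_natCast.2 (Dvd.intro p rfl)).trans h1

theorem relIndex_Gam {p N : ℕ} [Cond N] (hp : p.Prime) (hN : N ≠ 0) (h : ¬ p ∣ N) :
    (Gam (N * p)).relIndex (Gam N) = p + 1 := by
  have : Fact p.Prime := ⟨hp⟩
  have hN' : (N : ℤ) ≠ 0 := by exact_mod_cast hN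
  have hunit : ∀ a ∈ Gamma0 N, ((a 0 0 : ℤ) : ZMod p) = 0 → ((a 1 0 / N : ℤ) : ZMod p) ≠ 0 := by
    intro a ha h0 h1
    rw [ZMod.intCast_zmod_eq_zero_iff_dvd] at h0 h1
    obtain ⟨k, hk⟩ := (ES.mem_Gamma0_iff_dvd N a).1 ha
    rw [hk, Int.mul_ediv_cancel_left _ hN'] at h1
    have h2 : (p : ℤ) ∣ 1 := by
      rw [← ES.SL2_det_eq a, hk]
      exact dvd_sub (Dvd.dvd.mul_right h0 _) (Dvd.dvd.mul_left (Dvd.dvd.mul_left h1 _) _)
    exact hp.one_lt.ne' (by exact_mod_cast Int.eq_one_of_dvd_one (by positivity) h2)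
  have hcrit : ∀ a ∈ Gam N, ∀ b ∈ Gam N, (a⁻¹ * b ∈ Gam (N * p) ↔ a⁻¹ * b ∈ Gamma0 (p * N)) := by
    intro a ha b hb
    rw [mul_comm p N]
    exact ⟨fun h => h.1, fun h => ⟨h, (mul_mem (inv_mem ha) hb).2⟩⟩
  classical
  have := ES.relIndex_eq_card_of_map (Gam (N * p)) (Gam N)
    (fun a => if ((a 0 0 : ℤ) : ZMod p) = 0 then (none : Option (ZMod p)) else
      some (((a 1 0 / N : ℤ) : ZMod p) / ((a 0 0 : ℤ) : ZMod p))) ?_ ?_
  · rw [this, Nat.card_eq_fintype_card, Fintype.card_option, ZMod.card]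
  · intro x
    rcases x with _ | x
    · have hcop : IsCoprime (p : ℤ) (N : ℤ) := by
        rw [Nat.isCoprime_iff_coprime]
        exact (Nat.Prime.coprime_iff_not_dvd hp).2 h
      obtain ⟨x, y, hxy⟩ := hcop
      let g : SL(2, ℤ) := ⟨!![x * p, -y; N, 1], by rw [Matrix.det_fin_two_of]; linarith⟩
      refine ⟨g, ⟨?_, Or.inl ?_⟩, ?_⟩
      · rw [ES.mem_Gamma0_iff_dvd]
        exact dvd_refl _
      · show (((1 : ℤ) : ℤ) : ZMod (Cond.D N)) = 1
        simp
      · have : ((g 0 0 : ℤ) : ZMod p) = 0 := by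
          show ((x * p : ℤ) : ZMod p) = 0
          simp
        simp [this]
    · refine ⟨ES.lowerUni (N * (x.val : ℤ)), ⟨?_, Or.inl ?_⟩, ?_⟩
      · rw [ES.mem_Gamma0_iff_dvd]; simp
      · show (((1 : ℤ) : ℤ) : ZMod (Cond.D N)) = 1
        simp
      · simp [Int.mul_ediv_cancel_left _ hN']
  · intro a ha' b hb'
    have ha := ha'.1
    have hb := hb'.1
    rw [hcrit a ha' b hb', ES.step_criterion hN a b ha hb]
    by_cases ha0 : ((a 0 0 : ℤ) : ZMod p) = 0
    · by_cases hb0 : ((b 0 0 : ℤ) : ZMod p) = 0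
      · simp [ha0, hb0]
      · simp only [ha0, hb0, if_true, if_false, zero_mul]
        constructor
        · intro h; exact absurd h (by simp)
        · intro h
          exact absurd h.symm (mul_ne_zero hb0 (hunit a ha ha0))
    · by_cases hb0 : ((b 0 0 : ℤ) : ZMod p) = 0
      · simp only [ha0, hb0, if_true, if_false, zero_mul]
        constructor
        · intro h; exact absurd h (by simp)
        · intro h
          exact absurd h (mul_ne_zero ha0 (hunit b hb hb0))
      · simp only [ha0, hb0, if_false, Option.some_inj]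
        rw [div_eq_div_iff ha0 hb0]
        constructor
        · intro h; rw [mul_comm, ← h, mul_comm]
        · intro h; rw [mul_comm, ← h, mul_comm]

theorem index_Gam_mul {p N : ℕ} [Cond N] (hp : p.Prime) (hN : N ≠ 0) (h : ¬ p ∣ N) :
    (Gam (N * p)).index = (p + 1) * (Gam N).index := by
  rw [← Subgroup.relIndex_mul_index (Gam_mul_le N p), relIndex_Gam hp hN h]

/-! ### the function fields -/

variable (N r : ℕ) [NeZero N] [Cond N] [NeZero r]

/-- `f(q^r) ∈ F_{N r}`. -/
theorem full_exp : ∀ y ∈ T24.modularFunctionFieldFull N,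
    qExpand ℚ r y ∈ T24.modularFunctionFieldFull (N * r) :=
  fun y hy => T24.full_degeneracy_map_le N r ⟨y, hy, rfl⟩

/-- the inclusion `F_N ⊆ F_{N r}`. -/
abbrev alphaT : T24.FN N →ₐ[Kb] T24.FN (N * r) := alphaB (T24.full_degeneracy_le N r)

/-- `f ↦ f(q^r)`. -/
abbrev betaT : T24.FN N →ₐ[Kb] T24.FN (N * r) := betaB r (full_exp N r)

theorem alphaT_jF : alphaT N r (T24.jF N) = T24.jF (N * r) := rfl

theorem finite_alphaT : FiniteAlong Kb (alphaT N r) := by
  have : FiniteDimensional Kb⟮alphaT N r (T24.jF N)⟯ (T24.FN (N * r)) := by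
    rw [alphaT_jF]
    exact T24.finiteDimensional_jF (N * r)
  exact finite_along_of_adjoin (alphaT N r) (T24.jF N)

theorem isIntegral_betaT : (betaT N r).toRingHom.IsIntegral := by
  have htr : Transcendental Kb (betaT N r (T24.jF N)) :=
    fun h => T24.transcendental_jF N
      ((isAlgebraic_algHom_iff (betaT N r) (betaT N r).injective).mp h)
  have : FiniteDimensional Kb⟮betaT N r (T24.jF N)⟯ (T24.FN (N * r)) :=
    (T24.isFF1_FN (N * r)).finiteDimensional htr
  have h0 := finite_along_of_adjoin (betaT N r) (T24.jF N)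
  let _ := algebraAlong (betaT N r)
  have h : Module.Finite (T24.FN N) (T24.FN (N * r)) := h0
  have h2 : Algebra.IsIntegral (T24.FN N) (T24.FN (N * r)) := Algebra.IsIntegral.of_finite _ _
  exact algebraMap_isIntegral_iff.mpr h2

theorem finrank_alphaT (hr : r.Prime) (hrN : ¬ r ∣ N) :
    letI := algebraAlong (alphaT N r); Module.finrank (T24.FN N) (T24.FN (N * r)) = r + 1 := by
  have h := finrank_along_of_adjoin (alphaT N r) (T24.jF N)
  rw [alphaT_jF, T24.finrank_jF, T24.finrank_jF, index_Gam_mul hr (NeZero.ne N) hrN, mul_comm] at h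
  have h3 : (Gam N).index ≠ 0 := by
    rw [← T24.finrank_jF N]
    have := T24.finiteDimensional_jF N
    exact Module.finrank_pos.ne'
  exact Nat.eq_of_mul_eq_mul_right (Nat.pos_of_ne_zero h3) h

theorem coeff_jF : ((T24.jF N : T24.FN N) : LaurentSeries Kb).coeff (-1) ≠ 0 := by
  show (S24.Jser 1).coeff (-1) ≠ 0
  rw [S24.degree_Jser_one, coeff_jqModC_neg_one]
  exact one_ne_zero

end Fermat.Agent.S48.GES1
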