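import Fermat.Agent.S48.GES1.NF

set_option autoImplicit false
set_option synthInstance.maxHeartbeats 400000

/-!
# S48 / GES1 : the Eichler-Shimura relation on `X(Gam N)`

`F₀ = T24.modularFunctionFieldFull N`, `FB F₀ = T24.FN N`.

* `diaF_congr`, `diaF_comm` : the diamond `T24.diaF N g` only depends on the lower right entry of `g` modulo `D`;
* `G0 N r g0` : the only analytic input (supplied by `GES1/EmbG0.lean`): an embedding `θ` of `F_{N r}` in `ℂ((s))` which is standard on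
  `F_N` and sends `(⟨g0⟩ f)(q^r)` to `f(q^{1/r})`;
* `normData`, `heckeT` : the structures of layers 2 and 1;
* `unramT`, `esT` : the final statements.
-/

noncomputable section

open CongruenceSubgroup
open scoped MatrixGroups

namespace Fermat.Agent.S48.GES1

open AlgebraicCurve ModularCurve IntermediateField
open Fermat.Agent.S24 (Kb iotaK)
open Fermat.Agent.S18 (kA IntA SmallA incA redA)
open Fermat.Agent.T24 (Cond Gam mem_Gam)
open Fermat.Agent.GES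

variable (N : ℕ) [NeZero N] [Cond N]

/-! ### diamonds -/

theorem diaF_congr (g g' : Gamma0 N)
    (h : ((((g : SL(2, ℤ)) 1 1 : ℤ)) : ZMod (Cond.D N)) = (((g' : SL(2, ℤ)) 1 1 : ℤ) : ZMod (Cond.D N))) :
    T24.diaF N g = T24.diaF N g' := by
  have hmem : ((g'⁻¹ * g : Gamma0 N) : SL(2, ℤ)) ∈ Gam N := by
    refine ⟨(g'⁻¹ * g).2, Or.inl ?_⟩
    have h1 : ((g'⁻¹ * g : Gamma0 N) : SL(2, ℤ)) = (g' : SL(2, ℤ))⁻¹ * (g : SL(2, ℤ)) := rfl
    rw [h1, T24.gam_mul_apply (inv_mem g'.2), h]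
    have h2 : ((g' : SL(2, ℤ))⁻¹ : SL(2, ℤ)) 1 1 = (g' : SL(2, ℤ)) 0 0 := by
      rw [Matrix.SpecialLinearGroup.SL2_inv_expl]
      rfl
    rw [h2]
    exact T24.gam_diag g'.2
  ext1 f
  have h3 : g = g' * (g'⁻¹ * g) := by group
  rw [h3, T24.diaF_mul, T24.diaF_of_mem_Gam N _ hmem]

theorem diaF_comm (g g' : Gamma0 N) (f : T24.FN N) :
    T24.diaF N g (T24.diaF N g' f) = T24.diaF N g' (T24.diaF N g f) := by
  rw [← T24.diaF_mul, ← T24.diaF_mul]
  refine congrArg (fun e : T24.FN N ≃ₐ[Kb] T24.FN N => e f) (diaF_congr N _ _ ?_)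
  have h1 : ((g * g' : Gamma0 N) : SL(2, ℤ)) = (g : SL(2, ℤ)) * (g' : SL(2, ℤ)) := rfl
  have h2 : ((g' * g : Gamma0 N) : SL(2, ℤ)) = (g' : SL(2, ℤ)) * (g : SL(2, ℤ)) := rfl
  rw [h1, h2, T24.gam_mul_apply g.2, T24.gam_mul_apply g'.2, mul_comm]

theorem diaF_galB (g : Gamma0 N) (σ : GQ) (f : T24.FN N) :
    T24.diaF N g (galB (F0 N) σ f) = galB (F0 N) σ (T24.diaF N g f) :=
  T24.diaF_arithmeticRingAut N g σ f

/-- the diamond operators on Kummer classes. -/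
def diaV (m : ℕ) (g : Gamma0 N) : Module.End (ZMod m) (VB (F0 N) m) := autV (F0 N) (T24.diaF N g) m

theorem diaV_congr (m : ℕ) (g g' : Gamma0 N)
    (h : ((((g : SL(2, ℤ)) 1 1 : ℤ)) : ZMod (Cond.D N)) = (((g' : SL(2, ℤ)) 1 1 : ℤ) : ZMod (Cond.D N))) :
    diaV N m g = diaV N m g' := by
  rw [diaV, diaV, diaF_congr N g g' h]

theorem diaV_mk (m : ℕ) (g : Gamma0 N) (f : DB (F0 N) m) :
    diaV N m g (Vm.mk f) =
      Vm.mk ⟨autU (F0 N) (T24.diaF N g) f, autU_mem (F0 N) (T24.diaF N g) m f f.2⟩ :=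
  autV_mk (F0 N) _ m f

theorem diaV_mul (m : ℕ) (g g' : Gamma0 N) : diaV N m (g * g') = diaV N m g * diaV N m g' := by
  apply Vm.end_ext
  intro f
  rw [Module.End.mul_apply, diaV_mk, diaV_mk, diaV_mk]
  exact congrArg Vm.mk (Subtype.ext (Units.ext (T24.diaF_mul N g g' _)))

theorem diaV_comm (m : ℕ) (g g' : Gamma0 N) : diaV N m g * diaV N m g' = diaV N m g' * diaV N m g := by
  apply Vm.end_ext
  intro f
  rw [Module.End.mul_apply, Module.End.mul_apply, diaV_mk, diaV_mk, diaV_mk, diaV_mk]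
  exact congrArg Vm.mk (Subtype.ext (Units.ext (diaF_comm N g g' _)))

theorem diaV_comm_rhoB (m : ℕ) (g : Gamma0 N) (σ : GQ) :
    diaV N m g * rhoB (F0 N) m σ = rhoB (F0 N) m σ * diaV N m g := by
  apply Vm.end_ext
  intro f
  rw [Module.End.mul_apply, Module.End.mul_apply, rhoB_mk, diaV_mk, diaV_mk, rhoB_mk]
  exact congrArg Vm.mk (Subtype.ext (Units.ext (diaF_galB N g σ _)))

/-! ### the Hecke operator -/

variable (r : ℕ) [NeZero r]

/-- the analytic input. -/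
def G0 (g0 : Gamma0 N) : Prop :=
  ∃ θ : T24.FN (N * r) →+* LaurentSeries ℂ,
    (∀ f : T24.FN N, θ (alphaT N r f) = qExpand ℂ (N * r) (coeffMap iotaK (f : LaurentSeries Kb))) ∧
    (∀ f : T24.FN N, θ (betaT N r (T24.diaF N g0 f)) =
      qExpand ℂ N (coeffMap iotaK (f : LaurentSeries Kb)))

variable {N r}

/-- the data of layer 2. -/
def normData (hr : r.Prime) (hrN : ¬ r ∣ N) {g0 : Gamma0 N} (h : G0 N r g0) :
    NormData (F0 N) (F0 (N * r)) r where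
  le := T24.full_degeneracy_le N r
  exp := full_exp N r
  D := T24.diaF N g0
  D_gal := fun σ f => diaF_galB N g0 σ f
  fin := finite_alphaT N r
  rank := finrank_alphaT N r hr hrN
  beta_int := isIntegral_betaT N r
  M := N
  M_ne := NeZero.ne N
  θ := h.choose
  θ_alpha := h.choose_spec.1
  θ_beta := h.choose_spec.2
  f0 := T24.jF N
  f0_coeff := coeff_jF N

theorem diaF_mem_SA (g : Gamma0 N) {a : T24.FN N} (ha : a ∈ SA N) : T24.diaF N g a ∈ SA N := by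
  have h1 : a = T24.thetaIncl N ⟨a.1, ha⟩ := rfl
  rw [h1, T24.diaF_incl]
  exact (T24.diaA N g ⟨a.1, ha⟩).2

theorem diaF_inv_diaF (g : Gamma0 N) (a : T24.FN N) : T24.diaF N g⁻¹ (T24.diaF N g a) = a := by
  rw [← T24.diaF_mul, inv_mul_cancel]
  exact T24.diaH_one N a

/-- `⟨g⟩ a` has bounded denominators for `a ∈ ℚ̄[j(q^d), t_b(q^e)]`. -/
theorem diaF_nf {ℓ : ℕ} (hℓ : ℓ.Prime) (g : Gamma0 N) (A : ValuationSubring Kb)
    (hA : A.LiesOverPrime ℓ) (a : T24.FN N) (ha : a ∈ SA N) (ha0 : a ≠ 0) :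
    ∃ (c : Kb) (a₁ : T24.FN N), c ≠ 0 ∧ IntA A a₁.1 ∧ ¬ SmallA A a₁.1 ∧
      T24.diaF N g a = algebraMap Kb (T24.FN N) c * a₁ := by
  have h0 : (T24.diaF N g a).1 ≠ 0 := fun h =>
    (map_ne_zero (T24.diaF N g)).2 ha0 (Subtype.ext h)
  obtain ⟨c, a₁, hc, -, h1, h2, h3⟩ := nf_A0 N hℓ A hA _ (diaF_mem_SA g ha) h0
  exact ⟨c, a₁, hc, h1, h2, Subtype.ext h3⟩

/-- the structure of layer 1. -/
def heckeT (hr : r.Prime) (hrN : ¬ r ∣ N) {g0 : Gamma0 N} (h : G0 N r g0) : HeckeAt (F0 N) r :=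
  (normData hr hrN h).heckeAt hr.two_le (SA N) (fun A hA a haS ha0 => diaF_nf hr g0 A hA a haS ha0)

theorem heckeT_D (hr : r.Prime) (hrN : ¬ r ∣ N) {g0 : Gamma0 N} (h : G0 N r g0) :
    (heckeT hr hrN h).D = T24.diaF N g0 := rfl

theorem heckeT_S (hr : r.Prime) (hrN : ¬ r ∣ N) {g0 : Gamma0 N} (h : G0 N r g0) :
    (heckeT hr hrN h).S = SA N := rfl

theorem heckeT_DV (hr : r.Prime) (hrN : ¬ r ∣ N) {g0 : Gamma0 N} (h : G0 N r g0) (m : ℕ) :
    (heckeT hr hrN h).DV m = diaV N m g0 := rfl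

/-- the multiplicative Hecke operator `T_r f = Norm_α (β (⟨g0⟩ f))`; it does not depend on the proofs. -/
def heckeFT (N r : ℕ) [NeZero N] [Cond N] [NeZero r] (g0 : Gamma0 N) : T24.FN N →* T24.FN N :=
  ((letI := algebraAlong (alphaT N r); Algebra.norm (T24.FN N) : T24.FN (N * r) →* T24.FN N).comp
    ((betaT N r : T24.FN N →+* T24.FN (N * r)) : T24.FN N →* T24.FN (N * r))).comp
    ((T24.diaF N g0 : T24.FN N →+* T24.FN N) : T24.FN N →* T24.FN N)

theorem heckeT_T (hr : r.Prime) (hrN : ¬ r ∣ N) {g0 : Gamma0 N} (h : G0 N r g0) :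
    (heckeT hr hrN h).T = heckeFT N r g0 := rfl

/-- **(★)** for `X(Gam N)`. -/
theorem starT (hr : r.Prime) (hrN : ¬ r ∣ N) {g0 : Gamma0 N} (h : G0 N r g0) (ζ : Kbˣ)
    (hζ : IsPrimitiveRoot ζ r) (f : T24.FN N) :
    qExpand Kb r (heckeFT N r g0 f : LaurentSeries Kb) =
      qExpand Kb r (qExpand Kb r (T24.diaF N g0 f : LaurentSeries Kb)) *
        ∏ i : Fin r, S28.twist (ζ ^ (i : ℕ)) (f : LaurentSeries Kb) :=
  (normData hr hrN h).star hr.two_le ζ hζ f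

/-- **inertia at `r ∤ N m` acts trivially** on the Kummer classes of `X(Gam N)`. -/
theorem unramT {m : ℕ} [NeZero m] (hr : r.Prime) (hCC : CCB (F0 N) r m)
    (A : ValuationSubring Kb) (hA : A.LiesOverPrime r) (τ : GQ) (hτ : τ ∈ A.inertiaSubgroupIn ℚ) :
    rhoB (F0 N) m τ = 1 :=
  unramB hCC (nfT N hr).nfb A hA τ hτ

/-- **The Eichler-Shimura relation** on the Kummer classes of `X(Gam N)`. -/
theorem esT {m : ℕ} [NeZero m] (hr : r.Prime) (hrN : ¬ r ∣ N) {g0 : Gamma0 N} (h : G0 N r g0)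
    (hCC : CCB (F0 N) r m)
    (A : ValuationSubring Kb) (hA : A.LiesOverPrime r) (σ : GQ) (hσ : A.IsFrobeniusAt σ r) :
    rhoB (F0 N) m σ * rhoB (F0 N) m σ - (heckeT hr hrN h).TV m * rhoB (F0 N) m σ +
      (r : ZMod m) • diaV N m g0 = 0 :=
  es_relationB (heckeT hr hrN h) hr hCC (nfT N hr) A hA σ hσ

end Fermat.Agent.S48.GES1
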