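import Fermat.Agent.S48.GES1.Fin
import Fermat.Agent.S48.T18.G.Norm

set_option autoImplicit false
set_option synthInstance.maxHeartbeats 400000

/-!
# S48 / GES1 : normal forms with numerator and denominator in `ℚ̄[j(q^d), t_b(q^e)]`

`nfT : NFS (F0 N) ℓ (SA N)` for every prime `ℓ`, from `T18.norm_exists_A0`; `ccT` : the adapter from `T18.CCStatement`.
-/

noncomputable section

open CongruenceSubgroup
open scoped MatrixGroups

namespace Fermat.Agent.S48.GES1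

open AlgebraicCurve ModularCurve IntermediateField
open Fermat.Agent.S24 (Kb iotaK)
open Fermat.Agent.S18 (kA IntA SmallA incA redA)
open Fermat.Agent.T24 (Cond Gam mem_Gam)
open Fermat.Agent.GES

variable (N : ℕ) [NeZero N] [Cond N]

/-- the rational function field of `X(Gam N)`. -/
abbrev F0 : IntermediateField ℚ (LaurentSeries ℚ) := T24.modularFunctionFieldFull N

/-- the elements of `ℚ̄[j(q^d), t_b(q^e)]`. -/
def SA : Set (T24.FN N) := {f | f.1 ∈ T24.A0 N}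

theorem nf_C_eq (c : Kb) : (HahnSeries.C c : LaurentSeries Kb) = algebraMap Kb (LaurentSeries Kb) c := by
  rw [algebraMap_laurentSeries_eq_single]; rfl

/-- one element of `A0 N`. -/
theorem nf_A0 {ℓ : ℕ} (hℓ : ℓ.Prime) (A : ValuationSubring Kb) (hA : A.LiesOverPrime ℓ)
    (u : LaurentSeries Kb) (hu : u ∈ T24.A0 N) (hu0 : u ≠ 0) :
    ∃ (c : Kb) (a : T24.FN N), c ≠ 0 ∧ a ∈ SA N ∧ IntA A a.1 ∧ ¬ SmallA A a.1 ∧
      u = algebraMap Kb (LaurentSeries Kb) c * a.1 := by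
  obtain ⟨c, a', hc, ha1, ha2, ha3⟩ := T24.T18.norm_exists_A0 hℓ A hA N u hu hu0
  refine ⟨c, ⟨incA A a', ha1⟩, hc, ?_, S18.intA_incA A a', ?_, ?_⟩
  · show incA A a' ∈ T24.A0 N
    have h1 : incA A a' = algebraMap Kb (LaurentSeries Kb) c⁻¹ * u := by
      rw [ha3, nf_C_eq, ← mul_assoc, ← map_mul, inv_mul_cancel₀ hc, map_one, one_mul]
    rw [h1]
    exact mul_mem ((T24.A0 N).algebraMap_mem _) hu
  · exact fun h => ha2 ((S18.smallA_incA_iff A a').1 h)
  · rw [ha3, nf_C_eq]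

/-- **normal forms.** -/
theorem nfT {ℓ : ℕ} (hℓ : ℓ.Prime) : NFS (F0 N) ℓ (SA N) := by
  intro A hA f hf
  obtain ⟨u, hu, v, hv, hv0, huv⟩ := T24.exists_div_A0 N f.1 f.2
  have hu0 : u ≠ 0 := by
    intro h
    apply hf
    apply Subtype.ext
    rw [huv, h, zero_div]
    rfl
  obtain ⟨c1, a, hc1, haS, haI, haN, hua⟩ := nf_A0 N hℓ A hA u hu hu0
  obtain ⟨c2, b, hc2, hbS, hbI, hbN, hvb⟩ := nf_A0 N hℓ A hA v hv hv0
  refine ⟨c1 / c2, a, b, haS, hbS, div_ne_zero hc1 hc2, haI, hbI, haN, hbN, ?_⟩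
  apply Subtype.ext
  show f.1 = algebraMap Kb (LaurentSeries Kb) (c1 / c2) * (a.1 / b.1)
  rw [huv, hua, hvb, map_div₀, mul_div_mul_comm]

/-- the adapter for the core claim. -/
theorem ccT {ℓ m : ℕ} (h : T24.T18.CCStatement N ℓ m) : CCB (F0 N) ℓ m := h

end Fermat.Agent.S48.GES1
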