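import Fermat.Agent.S48.GES1.Abs
import Fermat.Agent.GES.NormProd
import Fermat.Agent.GES.NormOrd
import Fermat.Agent.GES.TwistC
import Fermat.Agent.GES.Fin

set_option autoImplicit false
set_option synthInstance.maxHeartbeats 400000

/-!
# S48 / GES1, layer 2 : the multiplicative Hecke operator as a norm (abstract)

`F₀ ≤ E₀` two fields of rational `q`-series with `f(q^r) ∈ E₀` for `f ∈ F₀`; `alphaB : FB F₀ → FB E₀` the inclusion,
`betaB : f ↦ f(q^r)`.  Given a `ℚ̄`-automorphism `D` of `FB F₀` commuting with Galois, `[FB E₀ : FB F₀] = r + 1`, and ONE embedding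
`θ : FB E₀ → ℂ((s))`, `s = q^{1/(M r)}`, which is standard on `FB F₀` and sends `(D f)(q^r)` to `f(q^{1/r})`, the operator
`T f = Norm_α (β (D f))` satisfies all the fields of `HeckeAt` (except for `D_nf`, which is kept as a hypothesis).

This is `GES/{StarFam, Star, Preserve, GalNorm}` with `D` inserted.
-/

noncomputable section

namespace Fermat.Agent.S48.GES1

open AlgebraicCurve ModularCurve
open Fermat.Agent.S24 (Kb iotaK)
open Fermat.Agent.S18 (kA IntA SmallA incA redA)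
open Fermat.Agent.GES

variable {F₀ E₀ : IntermediateField ℚ (LaurentSeries ℚ)}

theorem baseChange_mono (h : F₀ ≤ E₀) : laurentBaseChange Kb F₀ ≤ laurentBaseChange Kb E₀ := by
  rw [laurentBaseChange, IntermediateField.adjoin_le_iff]
  rintro _ ⟨y, hy, rfl⟩
  exact coeffEmb_mem_laurentBaseChange Kb (h hy)

theorem qExpand_mem_baseChange (n : ℕ) [NeZero n] (hF : ∀ y ∈ F₀, qExpand ℚ n y ∈ E₀)
    {x : LaurentSeries Kb} (hx : x ∈ laurentBaseChange Kb F₀) :
    qExpand Kb n x ∈ laurentBaseChange Kb E₀ := by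
  rw [mem_laurentBaseChange_iff] at hx
  induction hx using Subfield.closure_induction with
  | mem y hy =>
      rcases hy with ⟨a, rfl⟩ | ⟨z, hz, rfl⟩
      · rw [algebraMap_laurentSeries_eq_single, qExpand_single, mul_zero,
          ← algebraMap_laurentSeries_eq_single]
        exact (laurentBaseChange Kb E₀).algebraMap_mem _
      · have : qExpand Kb n (coeffEmb Kb z) = coeffEmb Kb (qExpand ℚ n z) :=
          (coeffMap_qExpand _ n z).symm
        rw [this]
        exact coeffEmb_mem_laurentBaseChange Kb (hF z hz)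
  | one => simp
  | add x y _ _ hx hy => simpa using add_mem hx hy
  | neg x _ hx => simpa using neg_mem hx
  | inv x _ hx => simpa using inv_mem hx
  | mul x y _ _ hx hy => simpa using mul_mem hx hy

/-- the inclusion. -/
def alphaB (h : F₀ ≤ E₀) : FB F₀ →ₐ[Kb] FB E₀ := IntermediateField.inclusion (baseChange_mono h)

@[simp] theorem coe_alphaB (h : F₀ ≤ E₀) (x : FB F₀) :
    (alphaB h x : LaurentSeries Kb) = (x : LaurentSeries Kb) :=
  IntermediateField.coe_inclusion _ x

/-- `f ↦ f(q^r)`. -/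
def betaB (r : ℕ) [NeZero r] (hF : ∀ y ∈ F₀, qExpand ℚ r y ∈ E₀) : FB F₀ →ₐ[Kb] FB E₀ where
  toFun x := ⟨qExpand Kb r (x : LaurentSeries Kb), qExpand_mem_baseChange r hF x.2⟩
  map_one' := Subtype.ext (map_one (qExpand Kb r))
  map_mul' _ _ := Subtype.ext (map_mul (qExpand Kb r) _ _)
  map_zero' := Subtype.ext (map_zero (qExpand Kb r))
  map_add' _ _ := Subtype.ext (map_add (qExpand Kb r) _ _)
  commutes' a := Subtype.ext <| by
    show qExpand Kb r (algebraMap Kb (LaurentSeries Kb) a) = algebraMap Kb (LaurentSeries Kb) a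
    rw [algebraMap_laurentSeries_eq_single, qExpand_single, mul_zero]

@[simp] theorem coe_betaB (r : ℕ) [NeZero r] (hF : ∀ y ∈ F₀, qExpand ℚ r y ∈ E₀) (x : FB F₀) :
    (betaB r hF x : LaurentSeries Kb) = qExpand Kb r (x : LaurentSeries Kb) := rfl

variable (F₀ E₀)

/-- the data of layer 2. -/
structure NormData (r : ℕ) [NeZero r] where
  le : F₀ ≤ E₀
  exp : ∀ y ∈ F₀, qExpand ℚ r y ∈ E₀
  D : FB F₀ ≃ₐ[Kb] FB F₀
  D_gal : ∀ (σ : GQ) (f : FB F₀), D (galB F₀ σ f) = galB F₀ σ (D f)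
  fin : FiniteAlong Kb (alphaB le)
  rank : letI := algebraAlong (alphaB le); Module.finrank (FB F₀) (FB E₀) = r + 1
  beta_int : (betaB r exp).toRingHom.IsIntegral
  M : ℕ
  M_ne : M ≠ 0
  θ : FB E₀ →+* LaurentSeries ℂ
  θ_alpha : ∀ f : FB F₀, haveI : NeZero (M * r) := ⟨Nat.mul_ne_zero M_ne (NeZero.ne r)⟩
    θ (alphaB le f) = qExpand ℂ (M * r) (coeffMap iotaK (f : LaurentSeries Kb))
  θ_beta : ∀ f : FB F₀, haveI : NeZero M := ⟨M_ne⟩
    θ (betaB r exp (D f)) = qExpand ℂ M (coeffMap iotaK (f : LaurentSeries Kb))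
  f0 : FB F₀
  f0_coeff : (f0 : LaurentSeries Kb).coeff (-1) ≠ 0

variable {F₀ E₀}

namespace NormData

variable {r : ℕ} [NeZero r] (X : NormData F₀ E₀ r)

/-- `FB E₀` as an algebra over `FB F₀`. -/
@[reducible] def alg : Algebra (FB F₀) (FB E₀) := algebraAlong (alphaB X.le)

/-- the norm. -/
def nrm : FB E₀ →* FB F₀ :=
  letI := X.alg
  Algebra.norm (FB F₀)

/-- `T f = Norm (β (D f))`. -/
def T : FB F₀ →* FB F₀ :=
  (X.nrm.comp ((betaB r X.exp : FB F₀ →+* FB E₀) : FB F₀ →* FB E₀)).comp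
    ((X.D : FB F₀ →+* FB F₀) : FB F₀ →* FB F₀)

theorem T_apply (f : FB F₀) : X.T f = X.nrm (betaB r X.exp (X.D f)) := rfl

theorem beta_galB (σ : GQ) (f : FB F₀) :
    betaB r X.exp (galB F₀ σ f) = galB E₀ σ (betaB r X.exp f) := by
  apply Subtype.ext
  rw [coe_betaB, coe_galB, coe_galB, coe_betaB, coeffMap_qExpand]

theorem nrm_galB (σ : GQ) (y : FB E₀) : X.nrm (galB E₀ σ y) = galB F₀ σ (X.nrm y) := by
  let _ := X.alg
  have h := Algebra.norm_eq_of_equiv_equiv (galB F₀ σ) (galB E₀ σ) (by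
    ext f
    rfl) y
  exact (RingEquiv.symm_apply_eq _).mp h.symm

theorem T_galB (σ : GQ) (f : FB F₀) : X.T (galB F₀ σ f) = galB F₀ σ (X.T f) := by
  rw [T_apply, T_apply, X.D_gal, X.beta_galB, X.nrm_galB]

theorem T_algebraMap (a : Kb) :
    X.T (algebraMap Kb (FB F₀) a) = algebraMap Kb (FB F₀) (a ^ (r + 1)) := by
  let _ := X.alg
  rw [T_apply, AlgEquiv.commutes, AlgHom.commutes]
  have h : algebraMap Kb (FB E₀) a = algebraMap (FB F₀) (FB E₀) (algebraMap Kb (FB F₀) a) :=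
    ((alphaB X.le).commutes a).symm
  rw [h, map_pow, ← X.rank]
  exact Algebra.norm_algebraMap _

theorem dvd_ord_betaB (m : ℕ) (f : FB F₀)
    (h : ∀ v : Place Kb (FB F₀), (m : ℤ) ∣ v.ord f) (w : Place Kb (FB E₀)) :
    (m : ℤ) ∣ w.ord (betaB r X.exp f) := by
  rw [Place.ord_restrictAlong (betaB r X.exp) X.beta_int w f]
  exact Dvd.dvd.mul_left (h _) _

theorem T_mem (m : ℕ) (hm : m ≠ 0) : ∀ f ∈ DB F₀ m, Units.map X.T f ∈ DB F₀ m := by
  intro f hf v
  let _ := X.alg
  have := isScalarTower_along (alphaB X.le)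
  have : FiniteDimensional (FB F₀) (FB E₀) := X.fin
  exact dvd_ord_norm (K := Kb) (F := FB F₀) (E := FB E₀) m hm
    (betaB r X.exp (X.D (f : FB F₀)))
    ((map_ne_zero _).mpr ((map_ne_zero _).mpr f.ne_zero))
    (X.dvd_ord_betaB m (X.D (f : FB F₀)) (autU_mem F₀ X.D m f hf)) v

/-! ### the `r + 1` embeddings -/

instance neZeroM : NeZero X.M := ⟨X.M_ne⟩

/-- the standard embedding `f(q) ↦ f(s^{M r})`. -/
def std : FB E₀ →+* LaurentSeries ℂ :=
  (qExpand ℂ (X.M * r)).comp ((coeffMap iotaK).comp (algebraMap (FB E₀) (LaurentSeries Kb)))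

theorem std_apply (f : FB E₀) :
    X.std f = qExpand ℂ (X.M * r) (coeffMap iotaK (f : LaurentSeries Kb)) := rfl

/-- the family of embeddings. -/
def tau (u : ℂˣ) : Option (Fin r) → (FB E₀ →+* LaurentSeries ℂ)
  | none => X.std
  | some i => (S28.twist (u ^ (i : ℕ))).comp X.θ

theorem tau_alpha (u : ℂˣ) (hu : u ^ (X.M * r) = 1) (q : Option (Fin r)) (f : FB F₀) :
    X.tau u q (alphaB X.le f) = X.std (alphaB X.le f) := by
  cases q with
  | none => rfl
  | some i =>
    show S28.twist (u ^ (i : ℕ)) (X.θ (alphaB X.le f)) = _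
    rw [X.θ_alpha f, std_apply, coe_alphaB]
    apply twist_qExpand_of_pow_eq_one
    rw [← pow_mul, mul_comm, pow_mul, hu, one_pow]

theorem tau_beta_some (u : ℂˣ) (i : Fin r) (f : FB F₀) :
    X.tau u (some i) (betaB r X.exp (X.D f)) =
      qExpand ℂ X.M (S28.twist ((u ^ X.M) ^ (i : ℕ)) (coeffMap iotaK (f : LaurentSeries Kb))) := by
  show S28.twist (u ^ (i : ℕ)) (X.θ (betaB r X.exp (X.D f))) = _
  rw [X.θ_beta f, twist_qExpand, pow_right_comm]

theorem tau_beta_none (u : ℂˣ) (f : FB F₀) :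
    X.tau u none (betaB r X.exp f) =
      qExpand ℂ X.M (qExpand ℂ r (qExpand ℂ r (coeffMap iotaK (f : LaurentSeries Kb)))) := by
  show X.std (betaB r X.exp f) = _
  rw [std_apply, coe_betaB, coeffMap_qExpand, qExpand_mul']

theorem tau_injective (hr : 2 ≤ r) (u : ℂˣ) (hu : IsPrimitiveRoot (u ^ X.M) r) :
    Function.Injective (X.tau u) := by
  set c : ℂ := (coeffMap iotaK (X.f0 : LaurentSeries Kb)).coeff (-1) with hc
  have hc0 : c ≠ 0 := by
    rw [hc, coeffMap_coeff]
    exact fun h => X.f0_coeff (iotaK.injective (by rw [h, map_zero]))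
  have hsome : ∀ i : Fin r, (X.tau u (some i) (betaB r X.exp (X.D X.f0))).coeff
      ((X.M : ℤ) * (-1)) = ((((u ^ X.M) ^ (i : ℕ)) ^ (-1 : ℤ) : ℂˣ) : ℂ) * c := by
    intro i
    rw [tau_beta_some, qExpand_coeff_mul, S28.twist_coeff]
  have hnone : (X.tau u none (betaB r X.exp (X.D X.f0))).coeff ((X.M : ℤ) * (-1)) = 0 := by
    rw [tau_beta_none, qExpand_coeff_mul, qExpand_coeff_of_not_dvd]
    intro hd
    have h1 : (r : ℤ) ∣ 1 := (dvd_neg.mp hd)
    have h2 := Int.le_of_dvd one_pos h1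
    omega
  intro a b hab
  have hab' := congrArg (fun φ : FB E₀ →+* LaurentSeries ℂ =>
    (φ (betaB r X.exp (X.D X.f0))).coeff ((X.M : ℤ) * (-1))) hab
  cases a with
  | none =>
    cases b with
    | none => rfl
    | some i =>
      rw [hnone, hsome] at hab'
      exact absurd hab'.symm (mul_ne_zero (Units.ne_zero _) hc0)
  | some i =>
    cases b with
    | none =>
      rw [hnone, hsome] at hab'
      exact absurd hab' (mul_ne_zero (Units.ne_zero _) hc0)
    | some k =>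
      rw [hsome, hsome] at hab'
      have h1 := Units.ext (mul_right_cancel₀ hc0 hab')
      rw [zpow_neg_one, zpow_neg_one, inv_inj] at h1
      have h2 := hu.pow_inj i.2 k.2 h1
      rw [Fin.ext h2]

/-- **(★)** -/
theorem star (hr : 2 ≤ r) (ζ : Kbˣ) (hζ : IsPrimitiveRoot ζ r) (f : FB F₀) :
    qExpand Kb r (X.T f : LaurentSeries Kb) =
      qExpand Kb r (qExpand Kb r (X.D f : LaurentSeries Kb)) *
        ∏ i : Fin r, S28.twist (ζ ^ (i : ℕ)) (f : LaurentSeries Kb) := by
  obtain ⟨u0, hu0⟩ := IsAlgClosed.exists_pow_nat_eq (iotaK (ζ : Kb))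
    (Nat.pos_of_ne_zero X.M_ne)
  have hu00 : u0 ≠ 0 := by
    rintro rfl
    rw [zero_pow X.M_ne] at hu0
    exact ζ.ne_zero (iotaK.injective (by rw [← hu0, map_zero]))
  set u : ℂˣ := Units.mk0 u0 hu00 with hu
  have huN : u ^ X.M = Units.map (iotaK : Kb →* ℂ) ζ := Units.ext (by simpa [hu] using hu0)
  have hprim : IsPrimitiveRoot (u ^ X.M) r := by
    rw [huN]
    exact hζ.map_of_injective (Units.map_injective iotaK.injective)
  have hu1 : u ^ (X.M * r) = 1 := by rw [pow_mul, hprim.pow_eq_one]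
  let _ := X.alg
  have : FiniteDimensional (FB F₀) (FB E₀) := X.fin
  have key := norm_eq_prod_of_embeddings (F := FB F₀) (E := FB E₀) (X.tau u)
    (X.tau_injective hr u hprim)
    (fun q q' x => (X.tau_alpha u hu1 q x).trans (X.tau_alpha u hu1 q' x).symm)
    (by rw [Fintype.card_option, Fintype.card_fin, X.rank])
    (betaB r X.exp (X.D f)) none
  rw [Fintype.prod_option, tau_beta_none] at key
  simp only [X.tau_beta_some u] at key
  have hL : X.tau u none (algebraMap (FB F₀) (FB E₀)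
      (Algebra.norm (FB F₀) (betaB r X.exp (X.D f)))) =
      qExpand ℂ X.M (qExpand ℂ r (coeffMap iotaK (X.T f : LaurentSeries Kb))) := by
    have h1 : Algebra.norm (FB F₀) (betaB r X.exp (X.D f)) = X.T f := rfl
    have h2 : ∀ x : FB F₀, X.tau u none (algebraMap (FB F₀) (FB E₀) x) =
        X.std (alphaB X.le x) := fun x => rfl
    rw [← qExpand_mul', h1, h2, std_apply, coe_alphaB]
  rw [hL, ← map_prod, ← map_mul] at key
  have key2 := qExpand_injective X.M key
  apply Fermat.Agent.S24.phi_coeffMap_injective iotaK iotaK.injective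
  rw [coeffMap_qExpand, key2, map_mul, map_prod, coeffMap_qExpand, coeffMap_qExpand]
  congr 1
  refine Finset.prod_congr rfl fun i _ => ?_
  rw [S28.coeffMap_twist, huN, map_pow]

/-- the structure of layer 1. -/
def heckeAt (hr : 2 ≤ r) (S : Set (FB F₀))
    (D_nf : ∀ A : ValuationSubring Kb, A.LiesOverPrime r → ∀ a ∈ S, a ≠ 0 →
      ∃ (c : Kb) (a₁ : FB F₀), c ≠ 0 ∧ IntA A a₁.1 ∧ ¬ SmallA A a₁.1 ∧
        X.D a = algebraMap Kb (FB F₀) c * a₁) : HeckeAt F₀ r where
  T := X.T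
  D := X.D
  T_gal := X.T_galB
  D_gal := X.D_gal
  T_const c hc := ⟨c ^ (r + 1), pow_ne_zero _ hc, X.T_algebraMap c⟩
  T_mem := X.T_mem
  star := X.star hr
  S := S
  D_nf := D_nf

end NormData

end Fermat.Agent.S48.GES1
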