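import Fermat.Agent.S48.T24.Ops

set_option autoImplicit false

/-!
# GES1 (concrete part), analytic lemmas

* `TInf_pre_level` : for `f` holomorphic, `N`-periodic and meromorphic at `i∞`, the function `z ↦ f (z / ℓ)` is `N ℓ`-periodic and has the
  SAME expansion in the local parameter (`exp (2π i z / (N ℓ))` instead of `exp (2π i z / N)`);
* `tb_smul` : `t_b (γ w) = t_{b γ₀₀} (w)` for `γ ∈ Γ₀(D)`;
* `smul_key` : `ℓ d · h z = γ (d z / ℓ)` for `h = (p t; N ℓk)`, `γ = (ℓ p, d t; N / d, k)`.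
-/

open UpperHalfPlane ModularForm CongruenceSubgroup
open scoped MatrixGroups

noncomputable section

namespace Fermat.Agent.T24.GES1

open Fermat.Agent.S24 ModularCurve

/-! ### change of level -/

theorem pre_mul (a b δ : ℕ) (f g : ℍ → ℂ) : pre a b δ (f * g) = pre a b δ f * pre a b δ g := rfl

theorem pre_pow (a b δ : ℕ) (f : ℍ → ℂ) (m : ℕ) : pre a b δ (f ^ m) = pre a b δ f ^ m := rfl

theorem isBd_pre_level {N ℓ : ℕ} (hℓ : 0 < ℓ) {f : ℍ → ℂ} (hf : IsBd N f) :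
    IsBd (N * ℓ) (pre 1 0 ℓ f) :=
  isBd_preD hf one_pos hℓ (dvd_of_eq (mul_comm ℓ N))

theorem qExpansion_pre_level {N ℓ : ℕ} [NeZero N] [NeZero ℓ] {f : ℍ → ℂ} (hf : IsBd N f) :
    HahnSeries.ofPowerSeries ℤ ℂ (qExpansion (N * ℓ : ℕ) (pre 1 0 ℓ f)) =
      HahnSeries.ofPowerSeries ℤ ℂ (qExpansion N f) := by
  have hℓ : 0 < ℓ := Nat.pos_of_ne_zero (NeZero.ne ℓ)
  have hN : 0 < N := Nat.pos_of_ne_zero (NeZero.ne N)
  have h1 : 1 * (N * ℓ / (ℓ * N)) = 1 := by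
    rw [mul_comm ℓ N, Nat.div_self (Nat.mul_pos hN hℓ)]
  have : NeZero (1 * (N * ℓ / (ℓ * N))) := ⟨by rw [h1]; exact one_ne_zero⟩
  have h := qExpansion_preD (N := N * ℓ) (a := 1) (b := 0) (δ := ℓ) hf one_pos hℓ
    (dvd_of_eq (mul_comm ℓ N))
  rw [h, qExpand_congr h1, qExpand_one_apply]
  have h0 : rootU (ℓ * N) ((0 : ℕ) : ℤ) = 1 := by rw [Nat.cast_zero]; exact expandC_rootU_zero _
  rw [h0, S24.twist_one]

theorem pre_level_mem_perSub {N ℓ : ℕ} [NeZero N] [NeZero ℓ] {f : ℍ → ℂ} (hf : f ∈ perSub N) :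
    pre 1 0 ℓ f ∈ perSub (N * ℓ) := by
  have hℓ : 0 < ℓ := Nat.pos_of_ne_zero (NeZero.ne ℓ)
  obtain ⟨m, hm⟩ := hf
  refine ⟨m, ?_⟩
  have h1 : pre 1 0 ℓ f * discriminant ^ m =
      pre 1 0 ℓ (f * discriminant ^ m) *
        (fun z => discriminant z ^ 1 / pre 1 0 ℓ discriminant z) ^ m := by
    funext z
    simp only [Pi.mul_apply, Pi.pow_apply, pre, pow_one, div_pow]
    have h2 : discriminant (ofComplex (((1 : ℕ) * (z : ℂ) + (0 : ℕ)) / (ℓ : ℕ))) ^ m ≠ 0 :=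
      pow_ne_zero _ (discriminant_ne_zero _)
    field_simp
  rw [h1]
  exact (isBd_pre_level hℓ hm).mul
    ((expandC_isBd_quot (N := N * ℓ) 0 one_pos hℓ (Dvd.intro_left N rfl)).pow m)

/-- **change of level.** -/
theorem TInf_pre_level {N ℓ : ℕ} [NeZero N] [NeZero ℓ] {f : ℍ → ℂ} (hf : f ∈ perSub N)
    (hf' : pre 1 0 ℓ f ∈ perSub (N * ℓ)) :
    TInf (N * ℓ) ⟨pre 1 0 ℓ f, hf'⟩ = TInf N ⟨f, hf⟩ := by
  have hℓ : 0 < ℓ := Nat.pos_of_ne_zero (NeZero.ne ℓ)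
  obtain ⟨m, hm⟩ := id hf
  have hD : IsBd N discriminant := isBd_discriminant N
  have hD' : IsBd (N * ℓ) (pre 1 0 ℓ discriminant) := isBd_pre_level hℓ hD
  have hm' : IsBd (N * ℓ) (pre 1 0 ℓ (f * discriminant ^ m)) := isBd_pre_level hℓ hm
  have e1 : (⟨f, hf⟩ : perSub N) * ⟨discriminant, hD.isPer⟩ ^ m =
      ⟨f * discriminant ^ m, hm.isPer⟩ := rfl
  have e2 : (⟨pre 1 0 ℓ f, hf'⟩ : perSub (N * ℓ)) * ⟨pre 1 0 ℓ discriminant, hD'.isPer⟩ ^ m =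
      ⟨pre 1 0 ℓ (f * discriminant ^ m), hm'.isPer⟩ := rfl
  have h1 := congrArg (TInf N) e1
  have h2 := congrArg (TInf (N * ℓ)) e2
  rw [map_mul, map_pow, TInf_of_isBd N ⟨discriminant, hD.isPer⟩ hD,
    TInf_of_isBd N ⟨f * discriminant ^ m, hm.isPer⟩ hm] at h1
  rw [map_mul, map_pow, TInf_of_isBd (N * ℓ) ⟨pre 1 0 ℓ discriminant, hD'.isPer⟩ hD',
    TInf_of_isBd (N * ℓ) ⟨pre 1 0 ℓ (f * discriminant ^ m), hm'.isPer⟩ hm'] at h2
  simp only at h1 h2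
  rw [qExpansion_pre_level hD, qExpansion_pre_level hm, ← h1] at h2
  refine mul_right_cancel₀ (pow_ne_zero m ?_) h2
  intro h0
  have h3 := (tinfE_eq_zero_iff hD).mp h0
  exact discriminant_ne_zero _ (congrFun h3 I)

/-! ### `t_b ∘ γ` -/

theorem tb_smul (D : ℕ) [NeZero D] (b : ZMod D) (γ : SL(2, ℤ))
    (h10 : ((γ 1 0 : ℤ) : ZMod D) = 0) (w : ℍ) :
    tb D b (γ • w) = tb D (b * ((γ 0 0 : ℤ) : ZMod D)) w := by
  have hdiag : ((γ 0 0 : ℤ) : ZMod D) * ((γ 1 1 : ℤ) : ZMod D) = 1 := by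
    have h := γ.2
    rw [Matrix.det_fin_two] at h
    have h2 := congrArg (Int.cast : ℤ → ZMod D) h
    push_cast at h2
    rw [h10, mul_zero, sub_zero] at h2
    exact h2
  set u : ZMod D := ((γ 0 0 : ℤ) : ZMod D) with hu
  set u' : ZMod D := ((γ 1 1 : ℤ) : ZMod D) with hu'
  unfold tb
  congr 1
  let E : ZMod D ≃ ZMod D :=
    { toFun := fun a => a * u'
      invFun := fun a => a * u
      left_inv := fun a => by
        simp only [mul_assoc]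
        rw [mul_comm u' u, hdiag, mul_one]
      right_inv := fun a => by simp only [mul_assoc, hdiag, mul_one] }
  refine Fintype.sum_equiv E _ _ fun a => ?_
  have h1 : rootU D (-((a.val : ℤ) * (b.val : ℤ))) =
      rootU D (-(((E a).val : ℤ) * ((b * u).val : ℤ))) := by
    apply rootU_congr
    push_cast
    simp only [ZMod.natCast_val, ZMod.cast_id', id_eq]
    show -(a * b) = -(a * u' * (b * u))
    have : a * u' * (b * u) = a * b * (u * u') := by ring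
    rw [this, hdiag, mul_one]
  have h2 : vmul D ![0, a] γ = ![0, E a] := by
    funext i
    fin_cases i
    · simp [vmul, h10]
    · simp [vmul, E, hu']
  rw [yv_smul, h1, h2]

/-! ### the matrix identity -/

/-- `ℓ d · h z = γ (d z / ℓ)`. -/
theorem smul_key {N ℓ d : ℕ} (hℓ : 0 < ℓ) (hd0 : 0 < d) (e : ℕ) (hde : N = d * e)
    (p t k : ℤ) (h γ : SL(2, ℤ))
    (h00 : h 0 0 = p) (h01 : h 0 1 = t) (h10 : h 1 0 = N) (h11 : h 1 1 = ℓ * k)
    (g00 : γ 0 0 = ℓ * p) (g01 : γ 0 1 = d * t) (g10 : γ 1 0 = e) (g11 : γ 1 1 = k) (z : ℍ) :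
    ofComplex ((((ℓ * d : ℕ) : ℂ) * ((h • z : ℍ) : ℂ) + (0 : ℕ)) / (1 : ℕ)) =
      γ • ofComplex (((d : ℂ) * z + (0 : ℕ)) / (ℓ : ℕ)) := by
  have hℓd : 0 < ℓ * d := Nat.mul_pos hℓ hd0
  set w' : ℍ := ofComplex ((((ℓ * d : ℕ) : ℂ) * ((h • z : ℍ) : ℂ) + (0 : ℕ)) / (1 : ℕ)) with hw'
  set w : ℍ := ofComplex (((d : ℂ) * z + (0 : ℕ)) / (ℓ : ℕ)) with hw
  have cw' : (w' : ℂ) = ((ℓ * d : ℕ) : ℂ) * ((h • z : ℍ) : ℂ) := by
    rw [hw', expandB_coe_ofComplex (ℓ * d) 0 1 hℓd one_pos]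
    simp
  have cw : (w : ℂ) = (d : ℂ) * z / ℓ := by
    rw [hw, expandB_coe_ofComplex d 0 ℓ hd0 hℓ]
    simp
  have hden := expandB_denom_ne h z
  apply UpperHalfPlane.ext
  rw [expandB_coe_smul, eq_div_iff (expandB_denom_ne γ w)]
  rw [g00, g01, g10, g11, cw, cw', expandB_coe_smul, h00, h01, h10, h11]
  rw [h10, h11] at hden
  have hℓc : (ℓ : ℂ) ≠ 0 := by exact_mod_cast hℓ.ne'
  have hN : (N : ℂ) = d * e := by exact_mod_cast hde
  push_cast at hden ⊢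
  rw [hN] at hden ⊢
  have hden' : (d : ℂ) * z * e + ℓ * k ≠ 0 := by
    have : (d : ℂ) * z * e + ℓ * k = d * e * z + ℓ * k := by ring
    rw [this]; exact hden
  field_simp

end Fermat.Agent.T24.GES1
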