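import Fermat.Agent.S48.NVH.G0
import Fermat.Agent.S48.TNV.KappaLat
import Fermat.Agent.S48.PER1.Main
import Fermat.Agent.S48.PER1.GamInst
import Fermat.Agent.S48.T18.CCGen
import Fermat.Agent.S48.RHO.Defs

set_option autoImplicit false
set_option synthInstance.maxHeartbeats 400000

/-!
# S48 / GES1 : the Kummer system of `X(Gam N)` modulo `ℓ`  (twin of `GES/System.lean`)

`exists_kummer1 N ℓ hℓ : Nonempty (RHO.Kummer1 N ℓ (PER1.formT N (Gam N)) (PER1.formD N (Gam N)))`, from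
* PER1 (`Lat`, `latT`, `latD`, `lat_link`),
* TNV / NVH (`kappa`, `kappa_ker`, `kappa_latT`, `kappa_latD`, `G0_g0`),
* GES1 (`rhoB`, `heckeT`, `diaV`, `esT`, `unramT`),
* T18 (`cc_gen`).
-/

noncomputable section

open CongruenceSubgroup
open scoped MatrixGroups

namespace Fermat.Agent.S48.GES1

open AlgebraicCurve ModularCurve
open Fermat.Agent.S24 (Kb iotaK)
open Fermat.Agent.T24 (Cond Gam)
open Fermat.Agent.GES

variable (N : ℕ) [NeZero N] [Cond N]

/-- `rhoB` as a homomorphism to additive endomorphisms. -/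
def actB (m : ℕ) : GQ →* AddMonoid.End (VB (F0 N) m) where
  toFun σ := (rhoB (F0 N) m σ).toAddMonoidHom
  map_one' := by
    rw [map_one]
    rfl
  map_mul' σ τ := by
    rw [map_mul]
    rfl

@[simp] theorem actB_apply (m : ℕ) (σ : GQ) (w : VB (F0 N) m) :
    actB N m σ w = rhoB (F0 N) m σ w := rfl

/-- the Hecke operators on Kummer classes (`0` at the bad indices). -/
def TWs (m : ℕ) [NeZero m] (r : ℕ) : Module.End (ZMod m) (VB (F0 N) m) :=
  if h : r.Prime ∧ ¬ r ∣ N then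
    haveI : NeZero r := ⟨h.1.ne_zero⟩
    (heckeT h.1 h.2 (NVH.G0_g0 N h.1 h.2)).TV m
  else 0

theorem TWs_eq (m : ℕ) [NeZero m] {r : ℕ} [NeZero r] (hr : r.Prime) (hrN : ¬ r ∣ N) :
    TWs N m r = (heckeT hr hrN (NVH.G0_g0 N hr hrN)).TV m := by
  rw [TWs, dif_pos ⟨hr, hrN⟩]

/-- `δ_u⁻¹`, `δ_u ∈ Γ₀(N)` with lower right entry `u`. -/
def dInv (u : (ZMod N)ˣ) : Gamma0 N := (⟨PER1.rep N u, PER1.rep_mem N u⟩ : Gamma0 N)⁻¹

/-- the diamond operators on Kummer classes. -/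
def DWs (m : ℕ) (u : (ZMod N)ˣ) : Module.End (ZMod m) (VB (F0 N) m) := diaV N m (dInv N u)

theorem good_prime {ℓ r : ℕ} (h : RHO.Good N ℓ r) : r.Prime := h.1

theorem good_not_dvd {ℓ r : ℕ} (h : RHO.Good N ℓ r) : ¬ r ∣ N := fun h1 => h.2 (h1.mul_right ℓ)

theorem good_not_dvd' {ℓ r : ℕ} (h : RHO.Good N ℓ r) : ¬ r ∣ ℓ := fun h1 => h.2 (h1.mul_left N)

/-- `⟨g0 N r⟩ = ⟨δ_u⁻¹⟩` for `u = r`. -/
theorem diaV_g0 (m : ℕ) {r : ℕ} (hr : r.Prime) (hrN : ¬ r ∣ N) (u : (ZMod N)ˣ)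
    (hu : (u : ZMod N) = (r : ZMod N)) : diaV N m (NVH.g0 N r) = DWs N m u := by
  have h1 : W1.punit N r = u := by
    apply Units.ext
    rw [W1.coe_punit (W1.coprime_of_prime hr hrN), hu]
  have h2 : NVH.g0 N r = dInv N u := by
    apply Subtype.ext
    show (PER1.sig N r)⁻¹ = (PER1.rep N u)⁻¹
    rw [PER1.sig, h1]
  rw [h2, DWs]

/-- **the Kummer system of `X(Gam N)` modulo `ℓ`.** -/
theorem exists_kummer1 (ℓ : ℕ) (hℓ : ℓ.Prime) :
    Nonempty (RHO.Kummer1 N ℓ (PER1.formT N (Gam N)) (PER1.formD N (Gam N))) := by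
  have : NeZero ℓ := ⟨hℓ.ne_zero⟩
  have := PER1.finiteIndex_of_isMid N (Gam N)
  exact ⟨{
    H := PER1.Lat (Gam N)
    T := PER1.latT N (Gam N)
    D := PER1.latD N (Gam N)
    link := PER1.lat_link N (Gam N)
    W := VB (F0 N) ℓ
    instW := inferInstanceAs (AddCommGroup (VB (F0 N) ℓ))
    tors := fun w => Vm.nsmul_eq_zero (K := Kb) (F := FB (F0 N)) (m := ℓ) w
    act := actB N ℓ
    smooth := fun w => exists_level_B (F0 N) ℓ w
    TW := fun r => (TWs N ℓ r).toAddMonoidHom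
    DW := fun u => (DWs N ℓ u).toAddMonoidHom
    commT := fun r hr σ w => by
      have : NeZero r := ⟨hr.1.ne_zero⟩
      have h := congrArg (fun f : Module.End (ZMod ℓ) (VB (F0 N) ℓ) => f w)
        ((heckeT hr.1 (good_not_dvd N hr) (NVH.G0_g0 N hr.1 (good_not_dvd N hr))).TV_comm_rhoB ℓ σ)
      rw [← TWs_eq N ℓ hr.1 (good_not_dvd N hr)] at h
      exact h
    commD := fun u σ w =>
      congrArg (fun f : Module.End (ZMod ℓ) (VB (F0 N) ℓ) => f w) (diaV_comm_rhoB N ℓ (dInv N u) σ)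
    commDD := fun u u' w =>
      congrArg (fun f : Module.End (ZMod ℓ) (VB (F0 N) ℓ) => f w)
        (diaV_comm N ℓ (dInv N u) (dInv N u'))
    es := fun r hr u hu A hA σ hσ w => by
      have : NeZero r := ⟨hr.1.ne_zero⟩
      have hrN := good_not_dvd N hr
      have h := congrArg (fun f : Module.End (ZMod ℓ) (VB (F0 N) ℓ) => f w)
        (esT hr.1 hrN (NVH.G0_g0 N hr.1 hrN)
          (ccT N (T24.T18.cc_gen N hr.1 hrN ℓ (good_not_dvd' N hr))) A hA σ hσ)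
      rw [← TWs_eq N ℓ hr.1 hrN, diaV_g0 N ℓ hr.1 hrN u hu] at h
      simp only [LinearMap.add_apply, LinearMap.sub_apply, Module.End.mul_apply,
        LinearMap.smul_apply, LinearMap.zero_apply, Nat.cast_smul_eq_nsmul] at h
      show rhoB (F0 N) ℓ σ (rhoB (F0 N) ℓ σ w) + r • DWs N ℓ u w =
        TWs N ℓ r (rhoB (F0 N) ℓ σ w)
      rw [← sub_eq_zero, ← h]
      abel
    unram := fun r hr A hA σ hσ w => by
      have : NeZero r := ⟨hr.1.ne_zero⟩
      show rhoB (F0 N) ℓ σ w = w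
      rw [unramT hr.1 (ccT N (T24.T18.cc_gen N hr.1 (good_not_dvd N hr) ℓ (good_not_dvd' N hr)))
        A hA σ hσ, Module.End.one_apply]
    κ := T24.NV.kappa N ℓ
    κ_ker := fun h hh => T24.NV.kappa_ker N ℓ h hh
    κ_T := fun r hr h => by
      have : NeZero r := ⟨hr.1.ne_zero⟩
      have hrN := good_not_dvd N hr
      show T24.NV.kappa N ℓ (PER1.latT N (Gam N) r h) = TWs N ℓ r (T24.NV.kappa N ℓ h)
      rw [TWs_eq N ℓ hr.1 hrN]
      exact T24.NV.kappa_latT N ℓ r hr.1 hrN (NVH.G0_g0 N hr.1 hrN) h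
    κ_D := fun u h =>
      T24.NV.kappa_latD N ℓ u ⟨PER1.rep N u, PER1.rep_mem N u⟩ (PER1.lr_rep N u) h }⟩

end Fermat.Agent.S48.GES1
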